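/-
GATE-S / [INST²] instantiation, layer 0 (helper86): **the nodal frame of `X₀(N)`, `q ∥ N`, `A | q`,
extracted from the proof of `GK/SS/ModularFibre.nonempty_ssPackage_fibre`** (helper56), which only
exports `Nonempty (SSPackage …)`.  Everything here is a re-packaging of on-main facts:

* the nodes `P Q : ι → Place 𝕜 (FresBar N A)` (`NodalBridge.exists_places_T`), of degree one,
  injective, off the poles of the reduced symmetric chart `τ^(1+q)`;
* `pencil` : `x ∈ L(n (tS)_∞) ∩ Rw₁ ∩ Rw₂ ⟹ (red₁ x, red₂ x) ∈ T P Q D D n`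
  (`HTGlue.hT_Tglue`, `D` the pole divisor of `τ^(1+q)`);
* `hdimT` : `dim T n + g' = n [F : K(tS)] + 1`, `g' + 1 = 2 g(F~) + #ι`, `g(F) ≤ g'`
  (`NodesGeFN.exists_hdimT_FN`).
-/
import Fermat.Agent.GK.SS.FibreFactsProof

set_option autoImplicit false
set_option linter.unusedSectionVars false
set_option linter.style.haveILetI false

noncomputable section

namespace Fermat.Agent.GS.Nodal.Inst

open AlgebraicCurve IntermediateField Module IsLocalRing ModularCurve
open Fermat.Agent.S24 Fermat.Agent.S24_helper62 Fermat.Agent.RRh45 Fermat.Agent.RR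
open Fermat.Agent.GJ.J1 Fermat.Agent.GJ.J1.Val Fermat.Agent.GJ.J1.InstGen
open Fermat.Agent.GJ.KumGroup Fermat.Agent.GJ.FF.PrincipalOf
open Fermat.Agent.GK.AL Fermat.Agent.GK.MultiVal Fermat.Agent.GK.Core
open Fermat.Agent.GK.CuspSep Fermat.Agent.GK.SymChart Fermat.Agent.GK.SymDegree
open Fermat.Agent.GK.BallTwo Fermat.Agent.GK.Val.TwoVal Fermat.Agent.GK.PsiFN
open Fermat.Agent.GK.FrobGlue Fermat.Agent.GK.NodalBridge Fermat.Agent.GK.NodalGraded
open Fermat.Agent.GK.NodalPole Fermat.Agent.GK.PencilInf Fermat.Agent.GK.PencilInstS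
open Fermat.Agent.GK.SS.TwoRed Fermat.Agent.GK.SS.FrobNodes Fermat.Agent.GK.SS.HTGlue
open Fermat.Agent.GK.SS.CompRiemann Fermat.Agent.GK.Core.Twist Fermat.Agent.GK.Core.TwistNodal
open Fermat.Agent.GK.SS.Modular

variable {q : ℕ} (N : ℕ) [NeZero N] [NeZero q] (A : ValuationSubring Kbar) (h : ExactDvd q N)

/-! ### the Riemann–Roch instances on both fibres (all `Prop`-valued) -/

theorem isGen_jF' : IsGen Kbar (jF N) := isGen_jF N

theorem finiteResidues_FN : FiniteResidues Kbar (FN N) :=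
  haveI := isGen_jF N
  Fermat.Agent.GJ.FF.finiteResidues (jF N)

theorem hasPrincipalDivisors_FN : HasPrincipalDivisors Kbar (FN N) :=
  haveI := isGen_jF N
  hasPrincipalDivisors_gen (jF N)

theorem nonempty_place_FN : Nonempty (Place Kbar (FN N)) :=
  haveI := isGen_jF N
  Fermat.Agent.GJ.FF.nonempty_place (jF N)

theorem isAlgClosed_res : IsAlgClosed (ResidueField A) :=
  Fermat.Agent.GJ.ResidueAlgClosed.isAlgClosed_residueField A

theorem finiteResidues_Fres : FiniteResidues (ResidueField A) (FresBar N A) :=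
  haveI := isGen_tauF N A
  Fermat.Agent.GJ.FF.finiteResidues (tauF N A)

theorem hasPrincipalDivisors_Fres : HasPrincipalDivisors (ResidueField A) (FresBar N A) :=
  haveI := isGen_tauF N A
  hasPrincipalDivisors_gen (tauF N A)

theorem nonempty_place_Fres : Nonempty (Place (ResidueField A) (FresBar N A)) :=
  haveI := isGen_tauF N A
  Fermat.Agent.GJ.FF.nonempty_place (tauF N A)

attribute [local instance] finiteResidues_FN hasPrincipalDivisors_FN nonempty_place_FN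
  isAlgClosed_res finiteResidues_Fres hasPrincipalDivisors_Fres nonempty_place_Fres

/-- the pole divisor of the reduced symmetric chart `τ^(1+q)` on the residue function field -/
def Dτ (q : ℕ) : Divisor (ResidueField A) (FresBar N A) :=
  Bound.poleDiv (ResidueField A) (tauF N A ^ (1 + q))

/-- **the nodal frame facts** at `F_N`, `q ∥ N`, for a family of node branches `P`, `Q`. -/
structure FrameFacts {ι : Type} [Fintype ι] (P Q : ι → Place (ResidueField A) (FresBar N A)) :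
    Prop where
  injP : Function.Injective P
  injQ : Function.Injective Q
  degP : ∀ j, (P j).deg = 1
  degQ : ∀ j, (Q j).deg = 1
  offP : ∀ j, Dτ N A q (P j) = 0
  offQ : ∀ j, Dτ N A q (Q j) = 0
  chart_mem : ((tauF N A ^ (1 + q), tauF N A ^ (1 + q)) : FresBar N A × FresBar N A) ∈
    T P Q (Dτ N A q) (Dτ N A q) 1
  pencil : ∀ (n : ℕ) (x : ball2 (redDataBar N A) (redData2 N A h)),
    (x : FN N) ∈ Lfib Kbar (tS N h.dvd) (n : ℤ) →
      red2 (redDataBar N A) (redData2 N A h) x ∈ T P Q (Dτ N A q) (Dτ N A q) n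
  hdimT : ∃ g' c0 : ℕ, genusRR Kbar (FN N) ≤ (g' : ℤ) ∧
      g' + 1 = genusFF (ResidueField A) (FresBar N A) + genusFF (ResidueField A) (FresBar N A) +
        Fintype.card ι ∧
      ∀ n, c0 ≤ n → finrank (ResidueField A) (T P Q (Dτ N A q) (Dτ N A q) n) + g' =
        n * finrank Kbar⟮tS N h.dvd⟯ (FN N) + 1


section Extract

variable {C : Type} [CommRing C] [Algebra (ResidueField A) C] [Algebra C (FresBar N A)]
  [IsScalarTower (ResidueField A) C (FresBar N A)]

set_option maxHeartbeats 1600000 in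
/-- **The nodal frame from the special-fibre facts** (first half of the proof of helper56's
`nonempty_ssPackage_fibre`, exported). -/
theorem exists_frameFacts_fibre (hA : A.LiesOverPrime q)
    [IsDedekindDomain C] (hCf : ¬ IsField C)
    (hinj : Function.Injective (algebraMap C (FresBar N A)))
    (hCrange : ∀ z : FresBar N A, RegFin (ResidueField A) (tauF N A) z →
      z ∈ Set.range (algebraMap C (FresBar N A)))
    (Ψ : C →ₐ[ResidueField A] C) (hΨpow : ∀ a, ∃ b, Ψ a = b ^ q)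
    (hΨ : ∀ c, algebraMap C (FresBar N A) (Ψ c) = psiFN N A h hA (algebraMap C (FresBar N A) c))
    (J' : Ideal C) (hfix : fixIdeal Ψ ≤ J')
    (hB : ∀ (x : FN N) (h1 : x ∈ (redDataBar N A).Rw) (h2 : x ∈ (redData2 N A h).Rw),
      RegFin Kbar (jF N) x →
      ∃ g g' : C, algebraMap C (FresBar N A) g = (redDataBar N A).red ⟨x, h1⟩ ∧
        algebraMap C (FresBar N A) g' = (redData2 N A h).red ⟨x, h2⟩ ∧ g - Ψ g' ∈ J')
    (hBsurj : ∀ g g' : C, g - Ψ g' ∈ J' →
      ∃ (x : FN N) (h1 : x ∈ (redDataBar N A).Rw) (h2 : x ∈ (redData2 N A h).Rw),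
        RegFin Kbar (jF N) x ∧ (redDataBar N A).red ⟨x, h1⟩ = algebraMap C (FresBar N A) g ∧
          (redData2 N A h).red ⟨x, h2⟩ = algebraMap C (FresBar N A) g')
    (mα mβ : ℕ)
    (hα : ∀ m : ℕ, mα ≤ m → ∀ y ∈ Lfib (ResidueField A) (tauF N A) (m : ℤ), ∃ x,
      ∃ hx : x ∈ (ballFN N A h).B,
      RegFin Kbar (jF N * jdF N q h.dvd)⁻¹ ((jF N)⁻¹ ^ m * x) ∧
        (ballFN N A h).red ⟨x, hx⟩ = (y, psiFN N A h hA y))
    (hβ : ∀ m : ℕ, mβ ≤ m → ∀ y ∈ Lfib (ResidueField A) (tauF N A) (m : ℤ), ∃ x,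
      ∃ hx : x ∈ (ballFN N A h).B,
      RegFin Kbar (jF N * jdF N q h.dvd)⁻¹ ((jdF N q h.dvd)⁻¹ ^ m * x) ∧
        (ballFN N A h).red ⟨x, hx⟩ = (psiFN N A h hA y, y)) :
    ∃ (ι : Type) (_ : Fintype ι) (P Q : ι → Place (ResidueField A) (FresBar N A)),
      FrameFacts N A h P Q := by
  classical
  haveI hgenK : IsGen Kbar (jF N) := isGen_jF N
  haveI hgenk : IsGen (ResidueField A) (tauF N A) := isGen_tauF N A
  haveI : Infinite (ResidueField A) := IsAlgClosed.instInfinite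
  -- the nodes
  have hq2 : 2 ≤ q := h.prime.two_le
  have hJ0 : J' ≠ ⊥ := fun h0 => fixIdeal_ne_bot Ψ hCf hq2 hΨpow (le_bot_iff.1 (h0 ▸ hfix))
  have hrad : J'.IsRadical := isRadical_of_fixIdeal_le Ψ hCf hq2 hΨpow hfix
  letI : Fintype ↥(nodes J') := (finite_nodes hCf hJ0).fintype
  have hJ : ∀ c : C, c ∈ J' ↔ ∀ m ∈ nodes J', c ∈ m := by
    intro c
    conv_lhs => rw [eq_sInf_nodes hJ0 hrad]
    rw [Ideal.mem_sInf]
  -- the chart on the special fibre
  have hτ0 : tauF N A ≠ 0 := tauF_ne_zero N A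
  have hs0 : tauF N A ^ (1 + q) ≠ 0 := pow_ne_zero _ hτ0
  have hD : ExactPoles (tauF N A ^ (1 + q)) (Bound.poleDiv (ResidueField A) (tauF N A ^ (1 + q))) :=
    exactPoles_poleDiv hs0
  have hregpow : ∀ x : FresBar N A, RegFin (ResidueField A) (tauF N A ^ (1 + q)) x ↔
      RegFin (ResidueField A) (tauF N A) x :=
    fun x => Fermat.Agent.GK.Red.regFin_pow_iff (by omega)
  have hC₁ : ∀ x : FresBar N A, RegFin (ResidueField A) (tauF N A ^ (1 + q)) x →
      x ∈ Set.range (algebraMap C (FresBar N A)) := fun x hx => hCrange x ((hregpow x).1 hx)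
  obtain ⟨gτ, hgτ⟩ := hCrange (tauF N A) (regFin_self (tauF N A))
  have hgs : algebraMap C (FresBar N A) (gτ ^ (1 + q)) = tauF N A ^ (1 + q) := by
    rw [map_pow, hgτ]
  obtain ⟨P, Q, hPinj, hQinj, hdP, hdQ, hD₁, hD₂, hTeq⟩ :=
    exists_places_T (Ψ := Ψ) (J' := J') (tauF N A) hinj hCf hfix hJ hC₁ hC₁ ⟨_, hgs⟩ ⟨_, hgs⟩ hD hD
  have hs : ((tauF N A ^ (1 + q), tauF N A ^ (1 + q)) : FresBar N A × FresBar N A) ∈
      T P Q (Bound.poleDiv (ResidueField A) (tauF N A ^ (1 + q)))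
        (Bound.poleDiv (ResidueField A) (tauF N A ^ (1 + q))) 1 := by
    rw [← hTeq 1]
    have := mem_Tglue_of_regFin (Ψ := Ψ) (J' := J') (tauF N A) hD hD (n := 1)
      (chart_sub_mem N A h hA hinj Ψ hΨ hfix hgτ)
      (by rw [hgs]; exact regFin_self _) (by rw [hgs]; exact regFin_self _)
      (by rw [hgs, pow_one, inv_mul_cancel₀ hs0]; exact regFin_one _)
      (by rw [hgs, pow_one, inv_mul_cancel₀ hs0]; exact regFin_one _)
    rwa [hgs] at this
  -- the chart on the generic fibre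
  have ht1 := isGaussChart1_tS N A h hA
  have ht2 := isGaussChart2_tS N A h hA
  have hr1 : (redDataBar N A).red ⟨tS N h.dvd, ht1.1⟩ = tauF N A ^ (1 + q) := by
    rw [red1_tS N A h hA, add_comm]
  have hr2 : (redData2 N A h).red ⟨tS N h.dvd, ht2.1⟩ = tauF N A ^ (1 + q) := by
    rw [red2_tS N A h hA, add_comm]
  have hD1' : ExactPoles ((redDataBar N A).red ⟨tS N h.dvd, ht1.1⟩)
      (Bound.poleDiv (ResidueField A) (tauF N A ^ (1 + q))) := by rw [hr1]; exact hD
  have hD2' : ExactPoles ((redData2 N A h).red ⟨tS N h.dvd, ht2.1⟩)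
      (Bound.poleDiv (ResidueField A) (tauF N A ^ (1 + q))) := by rw [hr2]; exact hD
  haveI : FiniteDimensional Kbar⟮tS N h.dvd⟯ (FN N) := (isGen_tS N h.dvd).finite
  have hc := redCompatFN N A h
  have hne := Rw1_ne_Rw2 N A h hA
  have hdeg := hdeg_tS_le N A h hA
  have hti1 := inv_tS_mem_Rw1 N A h hA
  have hti2 := inv_tS_mem_Rw2 N A h hA
  have hB' : ∀ (x : FN N) (h1 : x ∈ (redDataBar N A).Rw) (h2 : x ∈ (redData2 N A h).Rw),
      RegFin Kbar (tS N h.dvd) x →
      ∃ g g' : C, algebraMap C (FresBar N A) g = (redDataBar N A).red ⟨x, h1⟩ ∧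
        algebraMap C (FresBar N A) g' = (redData2 N A h).red ⟨x, h2⟩ ∧ g - Ψ g' ∈ J' :=
    fun x h1 h2 hx => hB x h1 h2 ((regFin_tS_iff N h.dvd h.prime x).1 hx)
  -- the node count
  have hfin : ∀ n, ∀ z ∈ T P Q (Bound.poleDiv (ResidueField A) (tauF N A ^ (1 + q)))
      (Bound.poleDiv (ResidueField A) (tauF N A ^ (1 + q))) n,
      z ∈ redAlg (ballFN N A h) (jF N * jdF N q h.dvd) := by
    intro n z hz
    rw [← hTeq n] at hz
    obtain ⟨-, -, g, g', hg, hg', hgg'⟩ := hz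
    obtain ⟨x, h1, h2, hreg, e1, e2⟩ := hBsurj g g' hgg'
    refine ⟨x, (mem_ballFN N A h).2 ⟨h1, h2⟩, (regFin_tS_iff N h.dvd h.prime x).2 hreg, ?_⟩
    exact Prod.ext (e1.trans hg) (e2.trans hg')
  have hdim := Fermat.Agent.GK.NodesGeFN.exists_hdimT_FN N A h hA
    hPinj hQinj hdP hdQ hD₁ hD₂ hs mα mβ hα hβ hfin
  refine ⟨↥(nodes J'), inferInstance, P, Q,
    { injP := hPinj, injQ := hQinj, degP := hdP, degQ := hdQ, offP := hD₁, offQ := hD₂
      chart_mem := hs
      pencil := fun n x hx => ?_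
      hdimT := hdim }⟩
  show _ ∈ T P Q (Bound.poleDiv (ResidueField A) (tauF N A ^ (1 + q)))
    (Bound.poleDiv (ResidueField A) (tauF N A ^ (1 + q))) n
  rw [← hTeq n]
  exact hT_Tglue (tauF N A) hc hne ht1 ht2 hdeg hti1 hti2 Ψ J' hD1' hD2' hB' n x hx

end Extract


section Level

open Fermat.Agent.GK.QS Fermat.Agent.GK.PsiFNGood

variable (N' : ℕ) [NeZero N'] (ℓ : ℕ) [Fact ℓ.Prime] [NeZero ℓ]
variable (A : ValuationSubring Kbar) (h : ExactDvd ℓ (N' * ℓ)) (hA : A.LiesOverPrime ℓ)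

include hA in
set_option synthInstance.maxHeartbeats 400000 in
set_option maxHeartbeats 1600000 in
/-- **The nodal frame at level `N' ℓ`, `ℓ ∤ N'`, `A | ℓ`** (tame-chart side conditions for
`ℓ ∈ {2, 3}` only) — unconditional: `fibreFacts` is plugged in. -/
theorem exists_frameFacts_mul (hℓN : ¬ ℓ ∣ N') (h2 : ℓ = 2 → 3 ∣ N') (h3 : ℓ = 3 → 2 ∣ N') :
    ∃ (ι : Type) (_ : Fintype ι) (P Q : ι → Place (ResidueField A) (FresBar (N' * ℓ) A)),
      FrameFacts (N' * ℓ) A h P Q := by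
  obtain ⟨hDed, hCf, hrange⟩ := fibreFacts N' ℓ A h hA hℓN h2 h3
  obtain ⟨J', hfix, hBT⟩ := exists_ideal_BT N' ℓ A h hℓN hA h2 h3
  obtain ⟨mα, hα⟩ := Fermat.Agent.GK.OldLiftsFN.exists_alpha_lifts_FN (N' * ℓ) A h hA
    (fun e => Dvd.dvd.mul_right (h2 e) ℓ) (fun e => Dvd.dvd.mul_right (h3 e) ℓ)
  obtain ⟨mβ, hβ⟩ := Fermat.Agent.GK.OldLiftsFN.exists_beta_lifts_FN (N' * ℓ) A h hA
    (fun e => Dvd.dvd.mul_right (h2 e) ℓ) (fun e => Dvd.dvd.mul_right (h3 e) ℓ)
  letI : Algebra (CRing N' A) (FresBar (N' * ℓ) A) := (iC N' ℓ A h hA).toRingHom.toAlgebra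
  haveI : IsScalarTower (ResidueField A) (CRing N' A) (FresBar (N' * ℓ) A) :=
    IsScalarTower.of_algebraMap_eq fun c => ((iC N' ℓ A h hA).commutes c).symm
  exact exists_frameFacts_fibre (N' * ℓ) A h hA hCf (iC_injective N' ℓ A h hA)
    (fun z hz => mem_range_iC N' ℓ A h hA hz)
    (psiC N' ℓ A hℓN hA) (exists_pow_eq_psiC N' ℓ A hℓN hA) (iC_psiC N' ℓ A h hA hℓN)
    J' hfix (hB_of_range N' ℓ A h hA hℓN hBT hrange) (hBsurj_of_BT N' ℓ A h hA hℓN hBT)
    mα mβ hα hβ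

end Level

end Fermat.Agent.GS.Nodal.Inst
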