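/-
GATE-S / [INST²] instantiation, layer 1 (helper86): **Riemann's theorem and node-freeness for
helper16's glued spaces `LSR2.glued P Q E₁ E₂`** (general divisors `E₁`, `E₂` off the nodes) — the
fields `nr_dim`, `nr_node` of `LSR2.NodalHyp`, from helper34's `NodalFibre.exists_finrank_glueSub`
(general-divisor version of `NodalGraded.range_fromGlue` / `finrank_T_eq_glueSub`).
-/
import Fermat.Agent.GS.Nodal.LSR2Defs
import Fermat.Agent.GK.NodalFibre

set_option autoImplicit false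
set_option linter.unusedSectionVars false

noncomputable section

open AlgebraicCurve

namespace Fermat.Agent.GS.Nodal.Inst

open Fermat.Agent.RRh45 Fermat.Agent.RR Fermat.Agent.GK.NodalRR Fermat.Agent.GK.EvalK
open Fermat.Agent.GK.Glue Fermat.Agent.S24 Fermat.Agent.GK.NodalGraded
open Fermat.Agent.GS.Nodal.LSR2

variable {k F₁ F₂ : Type*} [Field k] [Field F₁] [Field F₂] [Algebra k F₁] [Algebra k F₂]
variable {ι : Type*} [Fintype ι] [DecidableEq ι]
variable {P : ι → Place k F₁} {Q : ι → Place k F₂}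

/-- the comparison map from helper47's glued subspace, general divisors -/
def fromGlueE (hdegP : ∀ j, (P j).deg = 1) (hdegQ : ∀ j, (Q j).deg = 1)
    (E₁ : Divisor k F₁) (E₂ : Divisor k F₂) :
    glueSub (evalKFamily E₁ P hdegP) (evalKFamily E₂ Q hdegQ) ∅ (fun _ => (1 : k))
      →ₗ[k] (F₁ × F₂) :=
  (LinearMap.prodMap (riemannRochSpace E₁).subtype (riemannRochSpace E₂).subtype).comp
    (glueSub (evalKFamily E₁ P hdegP) (evalKFamily E₂ Q hdegQ) ∅ (fun _ => (1 : k))).subtype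

theorem fromGlueE_injective (hdegP : ∀ j, (P j).deg = 1) (hdegQ : ∀ j, (Q j).deg = 1)
    (E₁ : Divisor k F₁) (E₂ : Divisor k F₂) :
    Function.Injective (fromGlueE hdegP hdegQ E₁ E₂) := by
  intro x y hxy
  apply Subtype.ext
  have h1 := congrArg Prod.fst hxy
  have h2 := congrArg Prod.snd hxy
  exact Prod.ext (Subtype.ext h1) (Subtype.ext h2)

theorem range_fromGlueE (hdegP : ∀ j, (P j).deg = 1) (hdegQ : ∀ j, (Q j).deg = 1)
    {E₁ : Divisor k F₁} {E₂ : Divisor k F₂}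
    (hE₁ : ∀ j, E₁ (P j) = 0) (hE₂ : ∀ j, E₂ (Q j) = 0) :
    LinearMap.range (fromGlueE hdegP hdegQ E₁ E₂) = glued P Q E₁ E₂ := by
  ext z
  constructor
  · rintro ⟨x, rfl⟩
    have hx := x.2
    rw [mem_glueSub_empty] at hx
    refine ⟨x.1.1.2, x.1.2.2, fun j => ?_⟩
    refine ⟨evalK E₂ (Q j) (hdegQ j) x.1.2, ?_, ?_⟩
    · have := hx j
      rw [one_mul] at this
      exact (evalK_eq_iff_valueAt (hdegP j) (hE₁ j) _ _).mp this
    · exact (evalK_eq_iff_valueAt (hdegQ j) (hE₂ j) _ _).mp rfl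
  · rintro ⟨h1, h2, h3⟩
    refine ⟨⟨(⟨z.1, h1⟩, ⟨z.2, h2⟩), ?_⟩, rfl⟩
    rw [mem_glueSub_empty]
    intro j
    obtain ⟨c, hc1, hc2⟩ := h3 j
    rw [one_mul]
    show evalK E₁ (P j) (hdegP j) ⟨z.1, h1⟩ = evalK E₂ (Q j) (hdegQ j) ⟨z.2, h2⟩
    rw [(evalK_eq_iff_valueAt (hdegP j) (hE₁ j) ⟨z.1, h1⟩ c).mpr hc1,
      (evalK_eq_iff_valueAt (hdegQ j) (hE₂ j) ⟨z.2, h2⟩ c).mpr hc2]

theorem finrank_glued_eq_glueSub (hdegP : ∀ j, (P j).deg = 1) (hdegQ : ∀ j, (Q j).deg = 1)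
    {E₁ : Divisor k F₁} {E₂ : Divisor k F₂}
    (hE₁ : ∀ j, E₁ (P j) = 0) (hE₂ : ∀ j, E₂ (Q j) = 0) :
    Module.finrank k (glued P Q E₁ E₂) =
      Module.finrank k (glueSub (evalKFamily E₁ P hdegP) (evalKFamily E₂ Q hdegQ) ∅
        (fun _ => (1 : k))) := by
  rw [← range_fromGlueE hdegP hdegQ hE₁ hE₂]
  exact LinearMap.finrank_range_of_inj (fromGlueE_injective hdegP hdegQ E₁ E₂)

variable [FiniteResidues k F₁] [HasPrincipalDivisors k F₁] [Nonempty (Place k F₁)]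
variable [FiniteResidues k F₂] [HasPrincipalDivisors k F₂] [Nonempty (Place k F₂)]

/-- **Riemann's theorem for the glued spaces + no node is a base point**, general divisors off the
nodes of large degree on both components. -/
theorem exists_glued_riemann (hP : Function.Injective P) (hQ : Function.Injective Q)
    (hdegP : ∀ j, (P j).deg = 1) (hdegQ : ∀ j, (Q j).deg = 1) :
    ∃ c : ℤ, 0 ≤ c ∧ ∀ (E₁ : Divisor k F₁) (E₂ : Divisor k F₂),
      (∀ j, E₁ (P j) = 0) → (∀ j, E₂ (Q j) = 0) →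
      c ≤ Divisor.degree E₁ → c ≤ Divisor.degree E₂ →
      ((Module.finrank k (glued P Q E₁ E₂) : ℤ) =
          Divisor.degree E₁ + Divisor.degree E₂
            + Module.finrank k (riemannRochSpace (0 : Divisor k F₁))
            + Module.finrank k (riemannRochSpace (0 : Divisor k F₂))
            - genusFF k F₁ - genusFF k F₂ - Fintype.card ι) ∧
        ∀ j, ∃ w ∈ glued P Q E₁ E₂, ¬ ValueAt (P j) w.1 (0 : k) := by
  obtain ⟨c, hc⟩ := Fermat.Agent.GK.NodalFibre.exists_finrank_glueSub hP hQ hdegP hdegQ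
  refine ⟨max c 0, le_max_right _ _, fun E₁ E₂ hE₁ hE₂ h1 h2 => ?_⟩
  obtain ⟨hsurj, hdim⟩ := hc E₁ E₂ (le_trans (le_max_left _ _) h1) (le_trans (le_max_left _ _) h2)
  refine ⟨?_, fun j => ?_⟩
  · have key := hdim ∅ (fun _ => (1 : k))
    rw [finrank_glued_eq_glueSub hdegP hdegQ hE₁ hE₂, key, Finset.card_empty]
    push_cast
    ring
  · obtain ⟨x, hx⟩ := hsurj (fun _ => (1 : k), fun _ => (1 : k))
    rw [evPair_apply, Prod.mk.injEq] at hx
    have hx1 : ∀ i, evalK E₁ (P i) (hdegP i) x.1 = 1 := fun i => congrFun hx.1 i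
    have hx2 : ∀ i, evalK E₂ (Q i) (hdegQ i) x.2 = 1 := fun i => congrFun hx.2 i
    refine ⟨((x.1 : F₁), (x.2 : F₂)), ⟨x.1.2, x.2.2, fun i => ⟨1, ?_, ?_⟩⟩, ?_⟩
    · exact (evalK_eq_iff_valueAt (hdegP i) (hE₁ i) x.1 1).mp (hx1 i)
    · exact (evalK_eq_iff_valueAt (hdegQ i) (hE₂ i) x.2 1).mp (hx2 i)
    · intro h0
      have h1' : ValueAt (P j) (x.1 : F₁) (1 : k) :=
        (evalK_eq_iff_valueAt (hdegP j) (hE₁ j) x.1 1).mp (hx1 j)
      exact one_ne_zero (ValueAt.unique h1' h0)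

end Fermat.Agent.GS.Nodal.Inst
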