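/-
GATE-S / [INST²] instantiation (helper86, split with helper16 board 5033): **helper16's
`LSR2.NodalHyp` holds for the two Gauss valuations of `X₀(N)`, `q ∥ N`, `A | q`**
(`redDataBar N A`, `redData2 N A h`), with

* nodes `P`, `Q` = the frame of `GS/Nodal/Inst/Frame.lean` (supersingular branches);
* pencil divisor `C = (tS)_∞`, `tS = j · j_q` the symmetric chart; `C₁ = C₂ = (τ^(1+q))_∞`;
* genus `g = genusRR ℚ̄ (F_N)`; the genus equality `g(F_N) + 1 = 2 g(F~) + #nodes` is DERIVED here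
  from the pencil inclusion + rank preservation + `exists_hdimT_FN` (no appeal to the genus
  formula).

`nodalHyp_of_frameFacts` : from `FrameFacts`; `exists_nodalHyp_mul` : unconditional at level
`N' ℓ`, `ℓ ∤ N'` (tame-chart side conditions for `ℓ ∈ {2, 3}`).
-/
import Fermat.Agent.GS.Nodal.Inst.Frame
import Fermat.Agent.GS.Nodal.Inst.GluedDim

set_option autoImplicit false
set_option linter.unusedSectionVars false
set_option linter.style.haveILetI false

noncomputable section

namespace Fermat.Agent.GS.Nodal.Inst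

open AlgebraicCurve IntermediateField Module IsLocalRing ModularCurve
open Fermat.Agent.S24 Fermat.Agent.S24_helper62 Fermat.Agent.RRh45 Fermat.Agent.RR
open Fermat.Agent.GJ.J1 Fermat.Agent.GJ.J1.Val Fermat.Agent.GJ.J1.InstGen
open Fermat.Agent.GJ.J1.PlaceLattice
open Fermat.Agent.GK.AL Fermat.Agent.GK.MultiVal
open Fermat.Agent.GK.CuspSep Fermat.Agent.GK.SymChart Fermat.Agent.GK.SymDegree
open Fermat.Agent.GK.BallTwo Fermat.Agent.GK.Val.TwoVal
open Fermat.Agent.GK.NodalGraded Fermat.Agent.GK.NodalPole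
open Fermat.Agent.GK.SS.Modular
open Fermat.Agent.GS.Nodal.LSR2

variable {q : ℕ} (N : ℕ) [NeZero N] [NeZero q] (A : ValuationSubring Kbar) (h : ExactDvd q N)

attribute [local instance] finiteResidues_FN hasPrincipalDivisors_FN nonempty_place_FN
  isAlgClosed_res finiteResidues_Fres hasPrincipalDivisors_Fres nonempty_place_Fres

/-- the pencil divisor of the generic fibre: the pole divisor of the symmetric chart `j · j_q` -/
def CS : Divisor Kbar (FN N) := Bound.poleDiv Kbar (tS N h.dvd)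

/-- helper16's pair reduction is helper90's `redBall` of the pair reduction. -/
theorem redSpace2_eq_redBall {K F k Ft1 Ft2 : Type*} [Field K] [Field F] [Algebra K F] [Field k]
    [Field Ft1] [Algebra k Ft1] [Field Ft2] [Algebra k Ft2]
    {R1 : RedData K F k Ft1} {R2 : RedData K F k Ft2} (hc : RedCompat R1 R2) (D : Divisor K F) :
    redSpace2 hc D =
      redBall (k := k) (ball2 R1 R2) (red2 R1 R2).toAddMonoidHom (riemannRochSpace D) := by
  apply le_antisymm
  · rintro z ⟨x, h1, h2, hx, e1, e2⟩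
    have : z = (red2 R1 R2).toAddMonoidHom ⟨x, mem_ball2.mpr ⟨h1, h2⟩⟩ := Prod.ext e1.symm e2.symm
    rw [this]
    exact red_mem_redBall _ hx
  · rw [redBall, Submodule.span_le]
    rintro _ ⟨x, hx, rfl⟩
    exact ⟨(x : F), (mem_ball2.mp x.2).1, (mem_ball2.mp x.2).2, hx, rfl, rfl⟩

/-- rank preservation (`orth2`) from orthonormal bases of the semilocal ball. -/
theorem finrank_redSpace2 {K F k Ft1 Ft2 : Type*} [Field K] [Field F] [Algebra K F] [Field k]
    [Field Ft1] [Algebra k Ft1] [Field Ft2] [Algebra k Ft2]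
    {R1 : RedData K F k Ft1} {R2 : RedData K F k Ft2} (hc : RedCompat R1 R2)
    (ho : HasOrthoBases R1.A (ball2 R1 R2) (rad2 R1 R2)) (D : Divisor K F)
    [FiniteDimensional K (riemannRochSpace D)] :
    finrank k (redSpace2 hc D) = finrank K (riemannRochSpace D) := by
  rw [redSpace2_eq_redBall hc D]
  exact finrank_redBall2 hc ho (riemannRochSpace D)

section Main

variable {ι : Type} [Fintype ι] {P Q : ι → Place (ResidueField A) (FresBar N A)}

include h in
/-- `L(n · (tS)_∞)` is the fibre lattice `Lfib ℚ̄ tS n`. -/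
theorem mem_Lfib_of_mem_rr {n : ℕ} {x : FN N}
    (hx : x ∈ riemannRochSpace (n • CS N h)) : x ∈ Lfib Kbar (tS N h.dvd) (n : ℤ) := by
  haveI := isGen_jF N
  rw [Lfib_eq_riemannRochSpace (jF N) (transcendental_tS N h.dvd) (n : ℤ), natCast_zsmul]
  exact hx

/-- **The pencil inclusion in helper16's shape.** -/
theorem pencil_of_frameFacts (FF : FrameFacts N A h P Q) (n : ℕ) :
    redSpace2 (redCompatFN N A h) (n • CS N h) ≤ glued P Q (n • Dτ N A q) (n • Dτ N A q) := by
  rintro z ⟨x, h1, h2, hx, e1, e2⟩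
  have hmem := FF.pencil n ⟨x, mem_ball2.mpr ⟨h1, h2⟩⟩ (mem_Lfib_of_mem_rr N h hx)
  have hz : z = red2 (redDataBar N A) (redData2 N A h) ⟨x, mem_ball2.mpr ⟨h1, h2⟩⟩ :=
    Prod.ext e1.symm e2.symm
  rw [hz]
  exact hmem

variable (hA : A.LiesOverPrime q)

include hA in
/-- `deg (tS)_∞ = 2 deg (τ^(1+q))_∞`. -/
theorem degree_CS : Divisor.degree (CS N h) =
    Divisor.degree (Dτ N A q) + Divisor.degree (Dτ N A q) := by
  haveI := isGen_jF N
  haveI := isGen_tauF N A
  have ht1 := isGaussChart1_tS N A h hA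
  have ht2 := isGaussChart2_tS N A h hA
  have hr1 : (redDataBar N A).red ⟨tS N h.dvd, ht1.1⟩ = tauF N A ^ (1 + q) := by
    rw [red1_tS N A h hA, add_comm]
  have hr2 : (redData2 N A h).red ⟨tS N h.dvd, ht2.1⟩ = tauF N A ^ (1 + q) := by
    rw [red2_tS N A h hA, add_comm]
  have hstr : Transcendental (ResidueField A) (tauF N A ^ (1 + q)) :=
    (transcendental_tauF N A).pow (by omega)
  have hd := hdeg_tS_red N A h hA ht1 ht2
  rw [hr1, hr2] at hd
  rw [CS, degree_poleDiv_eq (jF N) (transcendental_tS N h.dvd), Dτ,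
    degree_poleDiv_eq (tauF N A) hstr, hd]
  push_cast
  ring

include hA in
/-- **The genus equality of the nodal fibre**, derived from the pencil count:
`g(F_N) = g'`, where `g' + 1 = 2 g(F~) + #nodes`. -/
theorem genusRR_eq_of_frameFacts (FF : FrameFacts N A h P Q) :
    genusRR Kbar (FN N) + 1 =
      (genusFF (ResidueField A) (FresBar N A) : ℤ) + genusFF (ResidueField A) (FresBar N A) +
        Fintype.card ι := by
  haveI := isGen_jF N
  obtain ⟨g', c0, hg', hg'eq, hdimT⟩ := FF.hdimT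
  have hdegpos : 0 < Divisor.degree (CS N h) := by
    rw [CS]
    exact degree_poleDiv_pos (jF N) (transcendental_tS N h.dvd)
  have hdegC : Divisor.degree (CS N h) = (finrank Kbar⟮tS N h.dvd⟯ (FN N) : ℤ) := by
    rw [CS]
    exact degree_poleDiv_eq (jF N) (transcendental_tS N h.dvd)
  -- a large `n`
  set n : ℕ := max c0 (boundRR Kbar (FN N)).toNat with hn
  have hn0 : c0 ≤ n := le_max_left _ _
  have hnb : boundRR Kbar (FN N) ≤ Divisor.degree (n • CS N h) := by
    rw [map_nsmul, nsmul_eq_mul]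
    have h1 : boundRR Kbar (FN N) ≤ ((boundRR Kbar (FN N)).toNat : ℤ) := Int.self_le_toNat _
    have h2 : ((boundRR Kbar (FN N)).toNat : ℤ) ≤ (n : ℤ) := by
      exact_mod_cast le_max_right c0 _
    have h3 : (0 : ℤ) ≤ n := by positivity
    nlinarith
  have hrr := finrank_eq_of_boundRR_le hnb
  have horth := finrank_redSpace2 (redCompatFN N A h) (hasOrthoBases_FN N A h hA) (n • CS N h)
  have hle : finrank (ResidueField A) (redSpace2 (redCompatFN N A h) (n • CS N h)) ≤
      finrank (ResidueField A) (T P Q (Dτ N A q) (Dτ N A q) n) :=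
    Submodule.finrank_mono (pencil_of_frameFacts N A h FF n)
  have hT := hdimT n hn0
  rw [horth] at hle
  rw [map_nsmul, nsmul_eq_mul, hdegC] at hrr
  have hle' : (finrank Kbar (riemannRochSpace (n • CS N h)) : ℤ) ≤
      finrank (ResidueField A) (T P Q (Dτ N A q) (Dτ N A q) n) := by exact_mod_cast hle
  have hT' : (finrank (ResidueField A) (T P Q (Dτ N A q) (Dτ N A q) n) : ℤ) + g' =
      n * finrank Kbar⟮tS N h.dvd⟯ (FN N) + 1 := by exact_mod_cast hT
  have hgg : (g' : ℤ) ≤ genusRR Kbar (FN N) := by linarith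
  have hge : ((g' + 1 : ℕ) : ℤ) = ((genusFF (ResidueField A) (FresBar N A) +
      genusFF (ResidueField A) (FresBar N A) + Fintype.card ι : ℕ) : ℤ) := by
    exact_mod_cast hg'eq
  push_cast at hge
  linarith

include hA in
/-- **helper16's `NodalHyp` for the nodal frame of `X₀(N)`, `q ∥ N`** (from `FrameFacts`). -/
theorem nodalHyp_of_frameFacts (FF : FrameFacts N A h P Q) :
    ∃ (c : ℤ) (n₀ : ℕ), NodalHyp (redCompatFN N A h) P Q (CS N h) (Dτ N A q) (Dτ N A q)
      (genusRR Kbar (FN N)) c n₀ := by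
  classical
  haveI := isGen_jF N
  haveI := isGen_tauF N A
  obtain ⟨c₁, hc₁0, hc₁⟩ := exists_glued_riemann FF.injP FF.injQ FF.degP FF.degQ
  have hgen := genusRR_eq_of_frameFacts N A h hA FF
  have hτ0 : tauF N A ≠ 0 := tauF_ne_zero N A
  have hs0 : tauF N A ^ (1 + q) ≠ 0 := pow_ne_zero _ hτ0
  have hstr : Transcendental (ResidueField A) (tauF N A ^ (1 + q)) :=
    (transcendental_tauF N A).pow (by omega)
  have hDτpos : 0 < Divisor.degree (Dτ N A q) := by
    rw [Dτ]
    exact degree_poleDiv_pos (tauF N A) hstr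
  have hl0 : finrank (ResidueField A) (riemannRochSpace (0 : Divisor (ResidueField A) (FresBar N A)))
      = 1 := Fermat.Agent.GK.GenusFF.finrank_L_zero_eq_one (tauF N A)
  set c : ℤ := max c₁ (max (boundRR Kbar (FN N)) 0) with hc
  have hcc₁ : c₁ ≤ c := le_max_left _ _
  have hcb : boundRR Kbar (FN N) ≤ c := le_trans (le_max_left _ _) (le_max_right _ _)
  have hc0 : 0 ≤ c := le_trans (le_max_right _ _) (le_max_right _ _)
  have hn₀ : c + 1 ≤ ((c + 1).toNat : ℤ) * Divisor.degree (Dτ N A q) := by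
    have h1 : c + 1 ≤ ((c + 1).toNat : ℤ) := Int.self_le_toNat _
    have h2 : (0 : ℤ) ≤ ((c + 1).toNat : ℤ) := by positivity
    nlinarith
  refine ⟨c, (c + 1).toNat,
    { c_nonneg := hc0
      degF := fun v => PlaceB.deg_eq_one v (jF N)
      degFt1 := fun v => PlaceB.deg_eq_one v (tauF N A)
      degFt2 := fun v => PlaceB.deg_eq_one v (tauF N A)
      rrF := fun D hD => finrank_eq_of_boundRR_le (le_trans hcb hD)
      orth2 := fun D =>
        finrank_redSpace2 (redCompatFN N A h) (hasOrthoBases_FN N A h hA) D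
      nr_dim := fun E₁ E₂ hE₁ hE₂ h1 h2 => by
        rw [(hc₁ E₁ E₂ hE₁ hE₂ (le_trans hcc₁ h1) (le_trans hcc₁ h2)).1, hl0]
        push_cast
        linarith
      nr_node := fun E₁ E₂ hE₁ hE₂ h1 h2 =>
        (hc₁ E₁ E₂ hE₁ hE₂ (le_trans hcc₁ h1) (le_trans hcc₁ h2)).2
      C_nonneg := Bound.poleDiv_nonneg _
      C₁_nonneg := Bound.poleDiv_nonneg _
      C₂_nonneg := Bound.poleDiv_nonneg _
      C₁_node := FF.offP
      C₂_node := FF.offQ
      degC := degree_CS N A h hA
      hn₀1 := hn₀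
      hn₀2 := hn₀
      pencil := fun n _ => pencil_of_frameFacts N A h FF n }⟩

end Main

section Level

variable (N' : ℕ) [NeZero N'] (ℓ : ℕ) [Fact ℓ.Prime] [NeZero ℓ]
variable (A : ValuationSubring Kbar) (h : ExactDvd ℓ (N' * ℓ)) (hA : A.LiesOverPrime ℓ)

include hA in
/-- **`NodalHyp` at level `N' ℓ`, `ℓ ∤ N'`, `A | ℓ`** — unconditional (tame-chart side conditions
for `ℓ ∈ {2, 3}` only).  The node index type, the node branches and the thresholds are outputs. -/
theorem exists_nodalHyp_mul (hℓN : ¬ ℓ ∣ N') (h2 : ℓ = 2 → 3 ∣ N') (h3 : ℓ = 3 → 2 ∣ N') :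
    ∃ (ι : Type) (_ : Fintype ι) (P Q : ι → Place (ResidueField A) (FresBar (N' * ℓ) A))
      (c : ℤ) (n₀ : ℕ), FrameFacts (N' * ℓ) A h P Q ∧
        NodalHyp (redCompatFN (N' * ℓ) A h) P Q (CS (N' * ℓ) h) (Dτ (N' * ℓ) A ℓ) (Dτ (N' * ℓ) A ℓ)
          (genusRR Kbar (FN (N' * ℓ))) c n₀ := by
  obtain ⟨ι, hι, P, Q, FF⟩ := exists_frameFacts_mul N' ℓ A h hA hℓN h2 h3
  obtain ⟨c, n₀, H⟩ := nodalHyp_of_frameFacts (N' * ℓ) A h hA FF
  exact ⟨ι, hι, P, Q, c, n₀, FF, H⟩

end Level

end Fermat.Agent.GS.Nodal.Inst
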