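/-
GATE-S / [INST²] instantiation, seam `[Nonempty ι]` (helper5): **the nodal frame of `X₀(N)`,
`q ∥ N`, `A | q`, has at least one node** — from `FrameFacts` ALONE.

`exists_nodalHyp_mul` / `exists_frameFacts_mul` (helper86) return the index type `ι` of the nodes
under an existential, so the instance `[Nonempty ι]` needed by `chartSupply_nodal` (helper87) and by
`Nod.gluedGenus_eq` is lost.  It cannot be recovered from the numerical fields of `NodalHyp` (with
`ι = ∅` every count stays consistent: the glued spaces become products); it is the connectedness of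
the special fibre, which is on main in abstract form as helper39's
`GK/SS/ConnCore.nonempty_of_chartPair`.  The fields `chart_mem`, `pencil`, `hdimT` of `FrameFacts`
are exactly its inputs.
-/
import Fermat.Agent.GS.Nodal.Inst.Frame
import Fermat.Agent.GK.SS.ConnCore

set_option autoImplicit false
set_option linter.unusedSectionVars false
set_option linter.style.haveILetI false

noncomputable section

namespace Fermat.Agent.GS.Nodal.Inst

open AlgebraicCurve IntermediateField Module IsLocalRing ModularCurve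
open Fermat.Agent.S24 Fermat.Agent.S24_helper62 Fermat.Agent.RRh45 Fermat.Agent.RR
open Fermat.Agent.GJ.J1 Fermat.Agent.GJ.J1.Val Fermat.Agent.GJ.J1.InstGen
open Fermat.Agent.GJ.KumGroup Fermat.Agent.GJ.FF.PrincipalOf
open Fermat.Agent.GK.AL Fermat.Agent.GK.MultiVal Fermat.Agent.GK.Core
open Fermat.Agent.GK.CuspSep Fermat.Agent.GK.SymChart Fermat.Agent.GK.SymDegree
open Fermat.Agent.GK.BallTwo Fermat.Agent.GK.Val.TwoVal Fermat.Agent.GK.PsiFN
open Fermat.Agent.GK.FrobGlue Fermat.Agent.GK.NodalBridge Fermat.Agent.GK.NodalGraded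
open Fermat.Agent.GK.NodalPole Fermat.Agent.GK.PencilInf Fermat.Agent.GK.PencilInstS
open Fermat.Agent.GK.SS.TwoRed Fermat.Agent.GK.SS.FrobNodes Fermat.Agent.GK.SS.HTGlue
open Fermat.Agent.GK.SS.CompRiemann Fermat.Agent.GK.Core.Twist Fermat.Agent.GK.Core.TwistNodal
open Fermat.Agent.GK.SS.Modular

variable {q : ℕ} (N : ℕ) [NeZero N] [NeZero q] (A : ValuationSubring Kbar) (h : ExactDvd q N)

attribute [local instance] finiteResidues_FN hasPrincipalDivisors_FN nonempty_place_FN
  isAlgClosed_res finiteResidues_Fres hasPrincipalDivisors_Fres nonempty_place_Fres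

variable {ι : Type} [Fintype ι] {P Q : ι → Place (ResidueField A) (FresBar N A)}

/-- **`Σ ≠ ∅` from the frame facts**: the index type of the nodes of the nodal frame of `X₀(N)`,
`q ∥ N`, `A | q`, is nonempty (connectedness of the special fibre, `ConnCore`). -/
theorem nonempty_of_frameFacts (hA : A.LiesOverPrime q) (FF : FrameFacts N A h P Q) :
    Nonempty ι := by
  classical
  haveI hgenK : IsGen Kbar (jF N) := isGen_jF N
  haveI hgenk : IsGen (ResidueField A) (tauF N A) := isGen_tauF N A
  haveI : Infinite (ResidueField A) := IsAlgClosed.instInfinite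
  -- the chart on the special fibre
  have hτ0 : tauF N A ≠ 0 := tauF_ne_zero N A
  have hs0 : tauF N A ^ (1 + q) ≠ 0 := pow_ne_zero _ hτ0
  have hD : ExactPoles (tauF N A ^ (1 + q)) (Dτ N A q) := exactPoles_poleDiv hs0
  -- the chart on the generic fibre
  have ht1 := isGaussChart1_tS N A h hA
  have ht2 := isGaussChart2_tS N A h hA
  have hr1 : (redDataBar N A).red ⟨tS N h.dvd, ht1.1⟩ = tauF N A ^ (1 + q) := by
    rw [red1_tS N A h hA, add_comm]
  have hr2 : (redData2 N A h).red ⟨tS N h.dvd, ht2.1⟩ = tauF N A ^ (1 + q) := by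
    rw [red2_tS N A h hA, add_comm]
  have hD1' : ExactPoles ((redDataBar N A).red ⟨tS N h.dvd, ht1.1⟩) (Dτ N A q) := by
    rw [hr1]; exact hD
  have hD2' : ExactPoles ((redData2 N A h).red ⟨tS N h.dvd, ht2.1⟩) (Dτ N A q) := by
    rw [hr2]; exact hD
  have hs' : (((redDataBar N A).red ⟨tS N h.dvd, ht1.1⟩,
      (redData2 N A h).red ⟨tS N h.dvd, ht2.1⟩) : FresBar N A × FresBar N A) ∈
      T P Q (Dτ N A q) (Dτ N A q) 1 := by rw [hr1, hr2]; exact FF.chart_mem
  haveI : FiniteDimensional Kbar⟮tS N h.dvd⟯ (FN N) := (isGen_tS N h.dvd).finite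
  have hc := redCompatFN N A h
  have htK := transcendental_tS N h.dvd
  obtain ⟨g', c0, hg', -, hdimT⟩ := FF.hdimT
  have hT : ∀ (n : ℕ) (x : ball2 (redDataBar N A) (redData2 N A h)),
      (x : FN N) ∈ Lfib Kbar (tS N h.dvd) (n : ℤ) →
      red2 (redDataBar N A) (redData2 N A h) x ∈ (chartPair hD1' hD2' hs').T n := by
    intro n x hx
    rw [chartPair_T]
    exact FF.pencil n x hx
  have hdimT' : ∀ n, c0 ≤ n →
      finrank (ResidueField A) ((chartPair hD1' hD2' hs').T n) + g' ≤
        n * finrank Kbar⟮tS N h.dvd⟯ (FN N) + 1 := by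
    intro n hn
    rw [chartPair_T]
    exact (hdimT n hn).le
  exact Fermat.Agent.GK.SS.Conn.nonempty_of_chartPair (jF N) hc (hasOrthoBases_FN N A h hA)
      (rankOne_bar N A h hA) (mem_ball2.2 ⟨ht1.1, ht2.1⟩) htK hD1' hD2' hs'
      (chartPair_s_eq ht1 ht2 hD1' hD2' hs' (mem_ball2.2 ⟨ht1.1, ht2.1⟩))
      (hunit_chartPair ht1 ht2 hD1' hD2' hs') (hTfin_chartPair hD1' hD2' hs') hT g' c0 hg' hdimT'

end Fermat.Agent.GS.Nodal.Inst
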