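/-
GATE-S / [INST²] instantiation (helper86): **`NodalHyp` at ANY level `N` with `p ∥ N`**, `A | p` —
the form consumed by the `FrameNode p N h` assembler: `exists_nodalHyp_mul` transported along
`N = (N / p) * p`.  Side conditions (tame charts): `p = 2 → 3 ∣ N`, `p = 3 → 2 ∣ N`.
-/
import Fermat.Agent.GS.Nodal.Inst.Modular
import Fermat.Agent.GS.Nodal.Inst.NonemptyNodes
import Fermat.Agent.GS.Nod.GluedRiemann

set_option autoImplicit false
set_option linter.unusedSectionVars false
set_option linter.style.haveILetI false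

noncomputable section

namespace Fermat.Agent.GS.Nodal.Inst

open AlgebraicCurve IntermediateField Module IsLocalRing ModularCurve
open Fermat.Agent.S24 Fermat.Agent.S24_helper62 Fermat.Agent.RRh45 Fermat.Agent.RR
open Fermat.Agent.GJ.J1 Fermat.Agent.GJ.J1.Val Fermat.Agent.GJ.J1.InstGen
open Fermat.Agent.GJ.J1.PlaceLattice
open Fermat.Agent.GK.AL Fermat.Agent.GK.MultiVal
open Fermat.Agent.GK.CuspSep Fermat.Agent.GK.SymChart Fermat.Agent.GK.SymDegree
open Fermat.Agent.GK.BallTwo Fermat.Agent.GK.Val.TwoVal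
open Fermat.Agent.GK.NodalGraded Fermat.Agent.GK.NodalPole
open Fermat.Agent.GK.SS.Modular
open Fermat.Agent.GS.Nodal.LSR2

attribute [local instance] finiteResidues_FN hasPrincipalDivisors_FN nonempty_place_FN
  isAlgClosed_res finiteResidues_Fres hasPrincipalDivisors_Fres nonempty_place_Fres

/-- **`NodalHyp` at level `N`, `p ∥ N`, `A | p`.** -/
theorem exists_nodalHyp_of_exactDvd (N : ℕ) [NeZero N] (p : ℕ) [NeZero p]
    (A : ValuationSubring Kbar) (h : ExactDvd p N) (hA : A.LiesOverPrime p)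
    (h2 : p = 2 → 3 ∣ N) (h3 : p = 3 → 2 ∣ N) :
    ∃ (ι : Type) (_ : Fintype ι) (P Q : ι → Place (ResidueField A) (FresBar N A))
      (c : ℤ) (n₀ : ℕ), FrameFacts N A h P Q ∧
        NodalHyp (redCompatFN N A h) P Q (CS N h) (Dτ N A p) (Dτ N A p)
          (genusRR Kbar (FN N)) c n₀ := by
  obtain ⟨N', hN'⟩ : ∃ N', N = N' * p := by
    obtain ⟨m, hm⟩ := h.dvd
    exact ⟨m, by rw [hm, mul_comm]⟩
  subst hN'
  haveI : NeZero N' := ⟨fun h0 => NeZero.ne (N' * p) (by rw [h0, zero_mul])⟩
  haveI : Fact p.Prime := ⟨h.prime⟩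
  have hpN : ¬ p ∣ N' := by
    rintro ⟨m, hm⟩
    apply h.not_sq
    exact ⟨m, by rw [hm]; ring⟩
  have h2' : p = 2 → 3 ∣ N' := by
    intro hp
    have h3N := h2 hp
    rw [hp] at h3N
    exact (Nat.Coprime.dvd_mul_right (by norm_num : Nat.Coprime 3 2)).mp h3N
  have h3' : p = 3 → 2 ∣ N' := by
    intro hp
    have h2N := h3 hp
    rw [hp] at h2N
    exact (Nat.Coprime.dvd_mul_right (by norm_num : Nat.Coprime 2 3)).mp h2N
  exact exists_nodalHyp_mul N' p A h hA hpN h2' h3'

/-- **seam (ii)**: on the modular nodal frame the arithmetic genus of the glued special fibre is the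
genus of the generic fibre. -/
theorem gluedGenus_eq_genusRR_of_frameFacts {q : ℕ} (N : ℕ) [NeZero N] [NeZero q]
    (A : ValuationSubring Kbar) (h : ExactDvd q N) (hA : A.LiesOverPrime q)
    {ι : Type} [Fintype ι] {P Q : ι → Place (ResidueField A) (FresBar N A)}
    (FF : FrameFacts N A h P Q) :
    Fermat.Agent.GS.Nod.gluedGenus (ResidueField A) (FresBar N A) (FresBar N A) ι =
      genusRR Kbar (FN N) := by
  haveI : Nonempty ι := nonempty_of_frameFacts N A h hA FF
  have h1 := Fermat.Agent.GS.Nod.gluedGenus_eq (P := P) (Q := Q) FF.degP FF.degQ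
  have h2 := genusRR_eq_of_frameFacts N A h hA FF
  rw [h1]
  linarith

end Fermat.Agent.GS.Nodal.Inst

end
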