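/-
GATE-S / [INST²] instantiation, layer 2 (helper86), ABSTRACT over helper16's `NodalHyp`:

* `goodPlace_of_pos_C` : every place in the support of the pencil divisor `C` is a good place
  (`Red.sub` under `Red.pencil`); `pos_C₁_of_mem_disc1`, `pos_C₂_of_mem_disc2` : and it reduces into
  the support of `C₁` / `C₂`;
* `valueAt_of_mem_disc1`, `valueAt_of_mem_disc2` (**EVAL**, helper26 board 5104 (1), for the discs
  of helper16): if `v ∈ disc_i Q'`, `v ∉ supp C`, `Q' ∉ supp C_i`, and `T ∈ L(m C)` is integral for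
  both valuations, then the value `T(v)` lies in the valuation ring `A` of the base and
  `(red_i T)(Q') = res (T(v))`.  No hypothesis on node values, no fibre formula.
-/
import Fermat.Agent.GS.Nodal.LSR2Main
import Fermat.Agent.GK.EvalK

set_option autoImplicit false
set_option linter.unusedSectionVars false

noncomputable section

open AlgebraicCurve

namespace Fermat.Agent.GS.Nodal.Inst

open Fermat.Agent.RRh45 Fermat.Agent.GJ.S37MinDiv Fermat.Agent.GJ.J1 Fermat.Agent.GK.MultiVal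
open Fermat.Agent.GK.NodalGraded Fermat.Agent.GK.EvalK Fermat.Agent.GS.Nodal.LSR2

variable {K F k Ft1 Ft2 : Type*} [Field K] [Field F] [Algebra K F] [Field k]
  [Field Ft1] [Algebra k Ft1] [Field Ft2] [Algebra k Ft2]
variable {R1 : RedData K F k Ft1} {R2 : RedData K F k Ft2} {hc : RedCompat R1 R2}
variable {ι : Type*} {P : ι → Place k Ft1} {Q : ι → Place k Ft2}
variable {C : Divisor K F} {C₁ : Divisor k Ft1} {C₂ : Divisor k Ft2} {g c : ℤ} {n₀ : ℕ}
variable [FiniteResidues K F] [HasPrincipalDivisors K F] [Nonempty (Place K F)]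
variable [FiniteResidues k Ft1] [HasPrincipalDivisors k Ft1] [Nonempty (Place k Ft1)]
variable [FiniteResidues k Ft2] [HasPrincipalDivisors k Ft2] [Nonempty (Place k Ft2)]
variable [Infinite k]
variable {H : NodalHyp hc P Q C C₁ C₂ g c n₀}

/-! ### the support of the pencil divisor -/

theorem single_add_le_succ_nsmul {L E : Type*} [Field L] [Field E] [Algebra L E]
    {D : Divisor L E} (hD : 0 ≤ D) {v : Place L E} (hv : 0 < D v) (n : ℕ) :
    Finsupp.single v 1 + n • D ≤ (n + 1) • D := by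
  rw [succ_nsmul, add_comm (n • D) D]
  refine add_le_add_left ?_ _
  rw [Finsupp.le_def]
  intro u
  by_cases huv : u = v
  · subst huv
    rw [Finsupp.single_eq_same]
    omega
  · rw [Finsupp.single_eq_of_ne huv]
    exact Finsupp.le_def.mp hD u

theorem le_single_add_nsmul {L E : Type*} [Field L] [Field E] [Algebra L E]
    (D : Divisor L E) (v : Place L E) (n : ℕ) : n • D ≤ Finsupp.single v 1 + n • D := by
  refine le_add_of_nonneg_left ?_
  rw [Finsupp.le_def]
  intro u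
  by_cases huv : u = v
  · subst huv
    rw [Finsupp.single_eq_same]
    simp
  · rw [Finsupp.single_eq_of_ne huv]
    simp

/-- **places of the pencil divisor are good.** -/
theorem goodPlace_of_pos_C {v : Place K F} (hv : 0 < C v) : GoodPlace H v := by
  obtain ⟨A₁, A₂, hR, -, -⟩ := (Red.pencil H (Nat.le_succ n₀)).sub
    (le_single_add_nsmul C v n₀) (single_add_le_succ_nsmul H.C_nonneg hv n₀)
  exact ⟨A₁, A₂, hR⟩

/-- a place of the pencil divisor in the disc of `Q'` (first component): `Q'` is in the support of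
`C₁`. -/
theorem pos_C₁_of_mem_disc1 {v : Place K F} (hv : 0 < C v) {Q' : Place k Ft1}
    (hd : v ∈ disc1 H Q') : 0 < C₁ Q' := by
  obtain ⟨A₁, A₂, hR, hA₁, -⟩ := (Red.pencil H (Nat.le_succ n₀)).sub
    (le_single_add_nsmul C v n₀) (single_add_le_succ_nsmul H.C_nonneg hv n₀)
  have hu := (Red.unique hR hd).1
  rw [hu] at hA₁
  have h1 := Finsupp.le_def.mp hA₁ Q'
  rw [Finsupp.add_apply, Finsupp.single_eq_same, nsmul_div_apply, nsmul_div_apply] at h1
  push_cast at h1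
  linarith

theorem pos_C₂_of_mem_disc2 {v : Place K F} (hv : 0 < C v) {Q' : Place k Ft2}
    (hd : v ∈ disc2 H Q') : 0 < C₂ Q' := by
  obtain ⟨A₁, A₂, hR, -, hA₂⟩ := (Red.pencil H (Nat.le_succ n₀)).sub
    (le_single_add_nsmul C v n₀) (single_add_le_succ_nsmul H.C_nonneg hv n₀)
  have hu := (Red.unique hR hd).2
  rw [hu] at hA₂
  have h1 := Finsupp.le_def.mp hA₂ Q'
  rw [Finsupp.add_apply, Finsupp.single_eq_same, nsmul_div_apply, nsmul_div_apply] at h1
  push_cast at h1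
  linarith

/-! ### values -/

/-- a function regular at a place of degree one has a value there -/
theorem exists_valueAt {L E : Type*} [Field L] [Field E] [Algebra L E] {v : Place L E}
    (hdeg : v.deg = 1) {D : Divisor L E} (hD : D v = 0) {f : E} (hf : f ∈ riemannRochSpace D) :
    ∃ a : L, ValueAt v f a :=
  ⟨evalK D v hdeg ⟨f, hf⟩, (evalK_eq_iff_valueAt hdeg hD ⟨f, hf⟩ _).mp rfl⟩

/-- `T - a` vanishes at `v`: membership in `L(m C - v)`. -/
theorem sub_mem_rr_sub_single {L E : Type*} [Field L] [Field E] [Algebra L E] {v : Place L E}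
    {D : Divisor L E} (hD0 : 0 ≤ D) (hD : D v = 0) {f : E} (hf : f ∈ riemannRochSpace D)
    {a : L} (ha : ValueAt v f a) :
    f - algebraMap L E a ∈ riemannRochSpace (D - Finsupp.single v 1) := by
  have hc : algebraMap L E a ∈ riemannRochSpace D := by
    have h1 := (riemannRochSpace D).smul_mem a (one_mem_riemannRochSpace hD0)
    rwa [Algebra.smul_def, mul_one] at h1
  have hsub := (riemannRochSpace D).sub_mem hf hc
  rw [mem_riemannRochSpace_iff] at hsub ⊢
  intro u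
  by_cases huv : u = v
  · subst huv
    rw [Finsupp.sub_apply, Finsupp.single_eq_same, hD]
    have := ha
    unfold ValueAt at this
    rw [mem_ordGE] at this
    rcases this with h | h
    · exact Or.inl h
    · right; omega
  · rw [Finsupp.sub_apply, Finsupp.single_eq_of_ne huv, sub_zero]
    exact hsub u


/-- the reduction of the inverse of a non-integral element vanishes -/
theorem red_inv_eq_zero {Ft : Type*} [Field Ft] [Algebra k Ft] (R : RedData K F k Ft) {x : F}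
    (hx : x ∉ R.Rw) (hxi : x⁻¹ ∈ R.Rw) : R.red ⟨x⁻¹, hxi⟩ = 0 := by
  rw [R.red_eq_zero_iff, ValuationSubring.valuation_lt_one_iff]
  show R.Rw.valuation x⁻¹ < 1
  have h1 : ¬ R.Rw.valuation x ≤ 1 := fun h => hx ((R.Rw.valuation_le_one_iff x).mp h)
  rw [not_le] at h1
  rw [map_inv₀]
  exact inv_lt_one_of_one_lt₀ h1

/-- **EVAL, common part**: a test function `x ∈ L(v + n₀ C)` integral for both valuations and a
multiplier `T' ∈ L(m C - v)` integral for both valuations give an element of the glued pencil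
space. -/
theorem red_mul_mem_glued (H : NodalHyp hc P Q C C₁ C₂ g c n₀) {v : Place K F} {m : ℕ}
    {T' x : F} (h1 : T' ∈ R1.Rw) (h2 : T' ∈ R2.Rw)
    (hT' : T' ∈ riemannRochSpace (m • C - Finsupp.single v 1)) (hx1 : x ∈ R1.Rw)
    (hx2 : x ∈ R2.Rw) (hxL : x ∈ riemannRochSpace (Finsupp.single v 1 + n₀ • C)) :
    (R1.red ⟨T', h1⟩ * R1.red ⟨x, hx1⟩, R2.red ⟨T', h2⟩ * R2.red ⟨x, hx2⟩) ∈
      glued P Q ((m + n₀) • C₁) ((m + n₀) • C₂) := by
  have hprod := mul_mem_riemannRochSpace_add hT' hxL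
  have hD : m • C - Finsupp.single v 1 + (Finsupp.single v 1 + n₀ • C) = (m + n₀) • C := by
    rw [add_nsmul]; abel
  rw [hD] at hprod
  have hmem : (R1.red ⟨T', h1⟩ * R1.red ⟨x, hx1⟩, R2.red ⟨T', h2⟩ * R2.red ⟨x, hx2⟩) ∈
      redSpace2 hc ((m + n₀) • C) :=
    ⟨T' * x, mul_mem h1 hx1, mul_mem h2 hx2, hprod, map_mul R1.red ⟨T', h1⟩ ⟨x, hx1⟩,
      map_mul R2.red ⟨T', h2⟩ ⟨x, hx2⟩⟩
  exact H.pencil (m + n₀) (Nat.le_add_left _ _) hmem

/-- **EVAL on the first component**: for `v ∈ disc1 H Q'` off the pencil divisor and `T ∈ L(m C)`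
integral for both valuations, `T(v) ∈ A` and `(red₁ T)(Q') = res (T(v))`. -/
theorem valueAt_of_mem_disc1 {v : Place K F} {Q' : Place k Ft1} (hd : v ∈ disc1 H Q')
    (hCv : C v = 0) (hCQ : C₁ Q' = 0) {T : F} (hT1 : T ∈ R1.Rw) (hT2 : T ∈ R2.Rw) {m : ℕ}
    (hTL : T ∈ riemannRochSpace (m • C)) :
    ∃ a : R1.A, ValueAt v T (a : K) ∧ ValueAt Q' (R1.red ⟨T, hT1⟩) (R1.res a) := by
  have hmC0 : 0 ≤ m • C := nsmul_div_nonneg m H.C_nonneg
  have hmCv : (m • C) v = 0 := by rw [nsmul_div_apply, hCv, mul_zero]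
  obtain ⟨a, ha⟩ := exists_valueAt (H.degF v) hmCv hTL
  have hsub := sub_mem_rr_sub_single hmC0 hmCv hTL ha
  -- the test function
  have hR : Red H (Finsupp.single v 1 + n₀ • C) (Finsupp.single Q' 1 + n₀ • C₁) (n₀ • C₂) := hd
  obtain ⟨w, hw, hw0, hword⟩ := H.exists_exact1 hR.node1 hR.node2 hR.deg1
    (by have := hR.deg2; omega) Q'
  have hword' : Q'.ord w.1 = -1 := by
    rw [hword, Finsupp.add_apply, Finsupp.single_eq_same, nsmul_div_apply, hCQ]; ring
  rw [← hR.eq] at hw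
  obtain ⟨x, hx1, hx2, hxL, e1, e2⟩ := hw
  have hQ0 : ((m + n₀) • C₁) Q' = 0 := by rw [nsmul_div_apply, hCQ, mul_zero]
  by_cases haA : a ∈ R1.A
  · refine ⟨⟨a, haA⟩, ha, ?_⟩
    have hc1 : algebraMap K F a ∈ R1.Rw := (R1.mem_A_iff a).1 haA
    have haA2 : a ∈ R2.A := hc.A_eq ▸ haA
    have hc2 : algebraMap K F a ∈ R2.Rw := (R2.mem_A_iff a).1 haA2
    have hgl := red_mul_mem_glued H (sub_mem hT1 hc1) (sub_mem hT2 hc2) hsub hx1 hx2 hxL
    have hL := hgl.1
    rw [e1] at hL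
    have hred : R1.red ⟨T - algebraMap K F a, sub_mem hT1 hc1⟩ =
        R1.red ⟨T, hT1⟩ - algebraMap k Ft1 (R1.res ⟨a, haA⟩) := by
      rw [← R1.red_algebraMap ⟨a, haA⟩, ← map_sub]; rfl
    rw [hred] at hL
    unfold ValueAt
    rw [mem_ordGE]
    by_cases h0 : R1.red ⟨T, hT1⟩ - algebraMap k Ft1 (R1.res ⟨a, haA⟩) = 0
    · exact Or.inl h0
    · right
      have h3 := (mem_riemannRochSpace_iff.mp hL Q').resolve_left (mul_ne_zero h0 hw0)
      rw [hQ0, Place.ord_mul Q' h0 hw0, hword'] at h3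
      omega
  · exfalso
    have haA2 : a ∉ R2.A := fun h => haA (hc.A_eq ▸ h)
    have hx1' : algebraMap K F a ∉ R1.Rw := fun h => haA ((R1.mem_A_iff a).2 h)
    have hx2' : algebraMap K F a ∉ R2.Rw := fun h => haA2 ((R2.mem_A_iff a).2 h)
    have hi1 : (algebraMap K F a)⁻¹ ∈ R1.Rw := (R1.Rw.mem_or_inv_mem _).resolve_left hx1'
    have hi2 : (algebraMap K F a)⁻¹ ∈ R2.Rw := (R2.Rw.mem_or_inv_mem _).resolve_left hx2'
    have ha0 : algebraMap K F a ≠ 0 := fun h => hx1' (h ▸ R1.Rw.zero_mem)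
    -- `T' = 1 - a⁻¹ T = -a⁻¹ (T - a)`
    have hT'eq : 1 - (algebraMap K F a)⁻¹ * T = -(a⁻¹) • (T - algebraMap K F a) := by
      rw [Algebra.smul_def, map_neg, map_inv₀]
      field_simp
      ring
    have hT'L : 1 - (algebraMap K F a)⁻¹ * T ∈
        riemannRochSpace (m • C - Finsupp.single v 1) := by
      rw [hT'eq]
      exact Submodule.smul_mem _ _ hsub
    have h1 : 1 - (algebraMap K F a)⁻¹ * T ∈ R1.Rw := sub_mem R1.Rw.one_mem (mul_mem hi1 hT1)
    have h2 : 1 - (algebraMap K F a)⁻¹ * T ∈ R2.Rw := sub_mem R2.Rw.one_mem (mul_mem hi2 hT2)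
    have hgl := red_mul_mem_glued H h1 h2 hT'L hx1 hx2 hxL
    have hL := hgl.1
    rw [e1] at hL
    have hred : R1.red ⟨1 - (algebraMap K F a)⁻¹ * T, h1⟩ = 1 := by
      have e : (⟨1 - (algebraMap K F a)⁻¹ * T, h1⟩ : R1.Rw) =
          1 - ⟨(algebraMap K F a)⁻¹, hi1⟩ * ⟨T, hT1⟩ := rfl
      rw [e, map_sub, map_one, map_mul, red_inv_eq_zero R1 hx1' hi1, zero_mul, sub_zero]
    rw [hred, one_mul] at hL
    have h3 := (mem_riemannRochSpace_iff.mp hL Q').resolve_left hw0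
    rw [hQ0, hword'] at h3
    omega


/-- **EVAL on the second component**: for `v ∈ disc2 H Q'` off the pencil divisor and
`T ∈ L(m C)` integral for both valuations, `T(v) ∈ A` and `(red₂ T)(Q') = res (T(v))`. -/
theorem valueAt_of_mem_disc2 {v : Place K F} {Q' : Place k Ft2} (hd : v ∈ disc2 H Q')
    (hCv : C v = 0) (hCQ : C₂ Q' = 0) {T : F} (hT1 : T ∈ R1.Rw) (hT2 : T ∈ R2.Rw) {m : ℕ}
    (hTL : T ∈ riemannRochSpace (m • C)) :
    ∃ a : R2.A, ValueAt v T (a : K) ∧ ValueAt Q' (R2.red ⟨T, hT2⟩) (R2.res a) := by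
  have hmC0 : 0 ≤ m • C := nsmul_div_nonneg m H.C_nonneg
  have hmCv : (m • C) v = 0 := by rw [nsmul_div_apply, hCv, mul_zero]
  obtain ⟨a, ha⟩ := exists_valueAt (H.degF v) hmCv hTL
  have hsub := sub_mem_rr_sub_single hmC0 hmCv hTL ha
  -- the test function
  have hR : Red H (Finsupp.single v 1 + n₀ • C) (n₀ • C₁) (Finsupp.single Q' 1 + n₀ • C₂) := hd
  obtain ⟨w, hw, hw0, hword⟩ := H.exists_exact2 hR.node1 hR.node2
    (by have := hR.deg1; omega) hR.deg2 Q'
  have hword' : Q'.ord w.2 = -1 := by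
    rw [hword, Finsupp.add_apply, Finsupp.single_eq_same, nsmul_div_apply, hCQ]; ring
  rw [← hR.eq] at hw
  obtain ⟨x, hx1, hx2, hxL, e1, e2⟩ := hw
  have hQ0 : ((m + n₀) • C₂) Q' = 0 := by rw [nsmul_div_apply, hCQ, mul_zero]
  by_cases haA : a ∈ R2.A
  · refine ⟨⟨a, haA⟩, ha, ?_⟩
    have hc2 : algebraMap K F a ∈ R2.Rw := (R2.mem_A_iff a).1 haA
    have haA1 : a ∈ R1.A := hc.A_eq.symm ▸ haA
    have hc1 : algebraMap K F a ∈ R1.Rw := (R1.mem_A_iff a).1 haA1
    have hgl := red_mul_mem_glued H (sub_mem hT1 hc1) (sub_mem hT2 hc2) hsub hx1 hx2 hxL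
    have hL := hgl.2.1
    rw [e2] at hL
    have hred : R2.red ⟨T - algebraMap K F a, sub_mem hT2 hc2⟩ =
        R2.red ⟨T, hT2⟩ - algebraMap k Ft2 (R2.res ⟨a, haA⟩) := by
      rw [← R2.red_algebraMap ⟨a, haA⟩, ← map_sub]; rfl
    rw [hred] at hL
    unfold ValueAt
    rw [mem_ordGE]
    by_cases h0 : R2.red ⟨T, hT2⟩ - algebraMap k Ft2 (R2.res ⟨a, haA⟩) = 0
    · exact Or.inl h0
    · right
      have h3 := (mem_riemannRochSpace_iff.mp hL Q').resolve_left (mul_ne_zero h0 hw0)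
      rw [hQ0, Place.ord_mul Q' h0 hw0, hword'] at h3
      omega
  · exfalso
    have haA1 : a ∉ R1.A := fun h => haA (hc.A_eq ▸ h)
    have hx1' : algebraMap K F a ∉ R1.Rw := fun h => haA1 ((R1.mem_A_iff a).2 h)
    have hx2' : algebraMap K F a ∉ R2.Rw := fun h => haA ((R2.mem_A_iff a).2 h)
    have hi1 : (algebraMap K F a)⁻¹ ∈ R1.Rw := (R1.Rw.mem_or_inv_mem _).resolve_left hx1'
    have hi2 : (algebraMap K F a)⁻¹ ∈ R2.Rw := (R2.Rw.mem_or_inv_mem _).resolve_left hx2'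
    have ha0 : algebraMap K F a ≠ 0 := fun h => hx1' (h ▸ R1.Rw.zero_mem)
    have hT'eq : 1 - (algebraMap K F a)⁻¹ * T = -(a⁻¹) • (T - algebraMap K F a) := by
      rw [Algebra.smul_def, map_neg, map_inv₀]
      field_simp
      ring
    have hT'L : 1 - (algebraMap K F a)⁻¹ * T ∈
        riemannRochSpace (m • C - Finsupp.single v 1) := by
      rw [hT'eq]
      exact Submodule.smul_mem _ _ hsub
    have h1 : 1 - (algebraMap K F a)⁻¹ * T ∈ R1.Rw := sub_mem R1.Rw.one_mem (mul_mem hi1 hT1)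
    have h2 : 1 - (algebraMap K F a)⁻¹ * T ∈ R2.Rw := sub_mem R2.Rw.one_mem (mul_mem hi2 hT2)
    have hgl := red_mul_mem_glued H h1 h2 hT'L hx1 hx2 hxL
    have hL := hgl.2.1
    rw [e2] at hL
    have hred : R2.red ⟨1 - (algebraMap K F a)⁻¹ * T, h2⟩ = 1 := by
      have e : (⟨1 - (algebraMap K F a)⁻¹ * T, h2⟩ : R2.Rw) =
          1 - ⟨(algebraMap K F a)⁻¹, hi2⟩ * ⟨T, hT2⟩ := rfl
      rw [e, map_sub, map_one, map_mul, red_inv_eq_zero R2 hx2' hi2, zero_mul, sub_zero]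
    rw [hred, one_mul] at hL
    have h3 := (mem_riemannRochSpace_iff.mp hL Q').resolve_left hw0
    rw [hQ0, hword'] at h3
    omega

end Fermat.Agent.GS.Nodal.Inst
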