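/-
GATE-S / [INST²] instantiation, layer 3 (helper86): **good places on the nodal frame of `X₀(N)`,
`q ∥ N`** — for ANY `H : NodalHyp (redCompatFN N A h) P Q (CS N h) (Dτ N A q) (Dτ N A q) g c n₀`
over a frame `FF : FrameFacts N A h P Q` (`GS/Nodal/Inst/Modular.lean` produces them).

* `CS_pos_iff`, `Dτ_pos_iff` : the supports of the pencil divisors are the cusps (poles of `j`,
  resp. of `τ`);
* `goodPlace_of_ord_jF_neg` : **every cusp is a good place**, and it reduces to a cusp of the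
  special fibre (`ord_tau_neg_of_mem_disc1/2`);
* `gluedAt_tau` : `(τ, τ^q) = (red₁ j, red₂ j)` is glued at every node: the node `j` has ONE
  `j`-value `c_j` (`τ(P j) = c_j = τ(Q j)^q`);
* `goodPlace_of_valueAt_jF` : **a place with `j(v) = a ∈ A` whose reduction `ã` is not a node value
  is a good place** (helper16's `ord_red_eq_sum2` for `y = j - a`);
* `valueAt_jF_of_mem_disc1/2` (**EVAL**) : `v ∈ disc_i Q'`, `v` and `Q'` not cusps ⟹
  `j(v) ∈ A` and `τ(Q') = res j(v)` (resp. `τ(Q')^q`);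
* `pairSurj_FN` : helper48's `PairSurj` (strong approximation) on this frame.
-/
import Fermat.Agent.GS.Nodal.Inst.Modular
import Fermat.Agent.GS.Nodal.Inst.GoodAbs
import Fermat.Agent.GS.Nodal.ROfSurj2

set_option autoImplicit false
set_option linter.unusedSectionVars false
set_option linter.style.haveILetI false

noncomputable section

namespace Fermat.Agent.GS.Nodal.Inst

open AlgebraicCurve IntermediateField Module IsLocalRing ModularCurve
open Fermat.Agent.S24 Fermat.Agent.S24_helper62 Fermat.Agent.RRh45 Fermat.Agent.RR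
open Fermat.Agent.GJ.J1 Fermat.Agent.GJ.J1.Val Fermat.Agent.GJ.J1.InstGen
open Fermat.Agent.GK.AL Fermat.Agent.GK.MultiVal Fermat.Agent.GK.CuspSep
open Fermat.Agent.GK.SymChart Fermat.Agent.GK.SymDegree
open Fermat.Agent.GK.BallTwo
open Fermat.Agent.GK.NodalGraded Fermat.Agent.GK.NodalPole
open Fermat.Agent.GS.Nodal.LSR2

variable {q : ℕ} (N : ℕ) [NeZero N] [NeZero q] (A : ValuationSubring Kbar) (h : ExactDvd q N)

attribute [local instance] finiteResidues_FN hasPrincipalDivisors_FN nonempty_place_FN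
  isAlgClosed_res finiteResidues_Fres hasPrincipalDivisors_Fres nonempty_place_Fres

theorem ord_pow_aux {L E : Type*} [Field L] [Field E] [Algebra L E] (v : Place L E) {f : E}
    (hf : f ≠ 0) (n : ℕ) : v.ord (f ^ n) = n * v.ord f := by
  induction n with
  | zero => simp [Place.ord_one]
  | succ n ih =>
    rw [pow_succ, Place.ord_mul v (pow_ne_zero n hf) hf, ih]
    push_cast
    ring

/-! ### the supports of the pencil divisors -/

include h in
/-- the support of `C = (j j_q)_∞` is the set of cusps -/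
theorem CS_pos_iff (v : Place Kbar (FN N)) : 0 < CS N h v ↔ v.ord (jF N) < 0 := by
  rw [CS, Bound.poleDiv_apply (Fermat.Agent.GK.SymChart.tS_ne_zero N h.dvd), ← ord_tS_neg_iff N h.dvd h.prime]
  constructor
  · intro h1
    by_contra h2
    rw [max_eq_right (by omega)] at h1
    exact lt_irrefl _ h1
  · intro h1
    exact lt_max_of_lt_left (by omega)

include h in
theorem CS_eq_zero_iff (v : Place Kbar (FN N)) : CS N h v = 0 ↔ 0 ≤ v.ord (jF N) := by
  have h0 : 0 ≤ CS N h v := by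
    have := Finsupp.le_def.mp (Bound.poleDiv_nonneg (K := Kbar) (tS N h.dvd)) v
    simpa [CS] using this
  have := CS_pos_iff N h v
  constructor
  · intro h1
    by_contra h2
    have := this.mpr (by omega)
    omega
  · intro h1
    by_contra h2
    have := this.mp (by omega)
    omega

/-- the support of `C₁ = C₂ = (τ^(1+q))_∞` is the set of poles of `τ` -/
theorem Dτ_pos_iff (Q' : Place (ResidueField A) (FresBar N A)) :
    0 < Dτ N A q Q' ↔ Q'.ord (tauF N A) < 0 := by
  have hτ0 : tauF N A ≠ 0 := tauF_ne_zero N A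
  rw [Dτ, Bound.poleDiv_apply (pow_ne_zero _ hτ0), ord_pow_aux Q' hτ0]
  have hq1 : (0 : ℤ) < ((1 + q : ℕ) : ℤ) := by positivity
  constructor
  · intro h1
    by_contra h2
    rw [not_lt] at h2
    have : 0 ≤ ((1 + q : ℕ) : ℤ) * Q'.ord (tauF N A) := mul_nonneg hq1.le h2
    rw [max_eq_right (by omega)] at h1
    exact lt_irrefl _ h1
  · intro h1
    have : ((1 + q : ℕ) : ℤ) * Q'.ord (tauF N A) < 0 := mul_neg_of_pos_of_neg hq1 h1
    exact lt_max_of_lt_left (by omega)

theorem Dτ_eq_zero_iff (Q' : Place (ResidueField A) (FresBar N A)) :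
    Dτ N A q Q' = 0 ↔ 0 ≤ Q'.ord (tauF N A) := by
  have h0 : 0 ≤ Dτ N A q Q' := by
    have := Finsupp.le_def.mp
      (Bound.poleDiv_nonneg (K := ResidueField A) (tauF N A ^ (1 + q))) Q'
    simpa [Dτ] using this
  have := Dτ_pos_iff (q := q) N A Q'
  constructor
  · intro h1
    by_contra h2
    have := this.mpr (by omega)
    omega
  · intro h1
    by_contra h2
    have := this.mp (by omega)
    omega


/-! ### cusps -/

include h in
/-- `j ∈ L((j j_q)_∞)` -/
theorem jF_mem_rr : jF N ∈ riemannRochSpace (1 • CS N h) := by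
  rw [one_smul, mem_riemannRochSpace_iff]
  intro v
  right
  rw [CS, Bound.poleDiv_apply (Fermat.Agent.GK.SymChart.tS_ne_zero N h.dvd)]
  by_cases h1 : 0 ≤ v.ord (tS N h.dvd)
  · have := (ord_tS_nonneg_iff N h.dvd h.prime v).mp h1
    rw [max_eq_right (by omega)]
    omega
  · have h2 := ord_jq_nonpos_of_ord_tS_nonpos N h.dvd h.prime v (by omega)
    rw [ord_tS] at h1 ⊢
    rw [max_eq_left (by omega)]
    omega

section Main

variable {ι : Type} [Fintype ι] {P Q : ι → Place (ResidueField A) (FresBar N A)}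
variable {g c : ℤ} {n₀ : ℕ}
variable (H : NodalHyp (redCompatFN N A h) P Q (CS N h) (Dτ N A q) (Dτ N A q) g c n₀)

/-- **every cusp is a good place** -/
theorem goodPlace_of_ord_jF_neg {v : Place Kbar (FN N)} (hv : v.ord (jF N) < 0) :
    GoodPlace H v :=
  haveI : Infinite (ResidueField A) := IsAlgClosed.instInfinite
  goodPlace_of_pos_C ((CS_pos_iff N h v).mpr hv)

/-- a cusp in the disc of `Q'` (first component): `Q'` is a pole of `τ` -/
theorem ord_tau_neg_of_mem_disc1 {v : Place Kbar (FN N)} (hv : v.ord (jF N) < 0)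
    {Q' : Place (ResidueField A) (FresBar N A)} (hd : v ∈ disc1 H Q') :
    Q'.ord (tauF N A) < 0 :=
  haveI : Infinite (ResidueField A) := IsAlgClosed.instInfinite
  (Dτ_pos_iff N A Q').mp (pos_C₁_of_mem_disc1 ((CS_pos_iff N h v).mpr hv) hd)

theorem ord_tau_neg_of_mem_disc2 {v : Place Kbar (FN N)} (hv : v.ord (jF N) < 0)
    {Q' : Place (ResidueField A) (FresBar N A)} (hd : v ∈ disc2 H Q') :
    Q'.ord (tauF N A) < 0 :=
  haveI : Infinite (ResidueField A) := IsAlgClosed.instInfinite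
  (Dτ_pos_iff N A Q').mp (pos_C₂_of_mem_disc2 ((CS_pos_iff N h v).mpr hv) hd)

/-! ### the `j`-values of the nodes -/

variable (hA : A.LiesOverPrime q) (FF : FrameFacts N A h P Q)

include hA FF in
/-- `(τ, τ^q) = (red₁ j, red₂ j)` is glued at every node. -/
theorem gluedAt_tau (j : ι) : GluedAt P Q j (tauF N A, tauF N A ^ q) := by
  obtain ⟨h1, e1⟩ := Fermat.Agent.GK.CuspSep.isRed1_jF N A
  obtain ⟨h2, e2⟩ := Fermat.Agent.GK.CuspSep.isRed2_jF N A h hA
  have hmem := FF.pencil 1 ⟨jF N, mem_ball2.mpr ⟨h1, h2⟩⟩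
    (mem_Lfib_of_mem_rr N h (jF_mem_rr N h))
  rw [red2_mk h1 h2, e1, e2] at hmem
  exact hmem.2.2 j

theorem valueAt_sub_const {L E : Type*} [Field L] [Field E] [Algebra L E] {v : Place L E}
    {f : E} {a : L} (hf : ValueAt v f a) (b : L) :
    ValueAt v (f - algebraMap L E b) (a - b) := by
  unfold ValueAt at hf ⊢
  rw [map_sub]
  convert hf using 1
  ring

include hA FF in
/-- **places over a non-node `j`-value are good**: `j(v) = a ∈ A`, `ã` not the `τ`-value of a
node. -/
theorem goodPlace_of_valueAt_jF (a : (redDataBar N A).A)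
    (hns : ∀ j, ¬ ValueAt (P j) (tauF N A) ((redDataBar N A).res a))
    {v : Place Kbar (FN N)} (hv : ValueAt v (jF N) (a : Kbar)) : GoodPlace H v := by
  haveI : Infinite (ResidueField A) := IsAlgClosed.instInfinite
  obtain ⟨hj1, e1⟩ := Fermat.Agent.GK.CuspSep.isRed1_jF N A
  obtain ⟨hj2, e2⟩ := Fermat.Agent.GK.CuspSep.isRed2_jF N A h hA
  have hc := redCompatFN N A h
  have ha2 : (a : Kbar) ∈ (redData2 N A h).A := by
    rw [← hc.A_eq]
    exact a.2
  have hc1 : algebraMap Kbar (FN N) (a : Kbar) ∈ (redDataBar N A).Rw :=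
    ((redDataBar N A).mem_A_iff a).1 a.2
  have hc2 : algebraMap Kbar (FN N) (a : Kbar) ∈ (redData2 N A h).Rw :=
    ((redData2 N A h).mem_A_iff a).1 ha2
  have hred1 : (redDataBar N A).red ⟨jF N - algebraMap Kbar (FN N) (a : Kbar), sub_mem hj1 hc1⟩ =
      tauF N A - algebraMap (ResidueField A) (FresBar N A) ((redDataBar N A).res a) := by
    rw [← e1, ← (redDataBar N A).red_algebraMap a, ← map_sub]; rfl
  have hred2 : (redData2 N A h).red ⟨jF N - algebraMap Kbar (FN N) (a : Kbar), sub_mem hj2 hc2⟩ =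
      tauF N A ^ q - algebraMap (ResidueField A) (FresBar N A) ((redDataBar N A).res a) := by
    rw [← e2, hc.res_eq (a : Kbar) a.2 ha2, ← (redData2 N A h).red_algebraMap ⟨a, ha2⟩, ← map_sub]
    rfl
  have hq0 : 0 < q := Nat.pos_of_ne_zero (NeZero.ne q)
  have htr := transcendental_tauF N A
  have hy1 : tauF N A - algebraMap (ResidueField A) (FresBar N A) ((redDataBar N A).res a) ≠ 0 :=
    fun h0 => htr (sub_eq_zero.mp h0 ▸ isAlgebraic_algebraMap _)
  have hy2 : tauF N A ^ q -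
      algebraMap (ResidueField A) (FresBar N A) ((redDataBar N A).res a) ≠ 0 :=
    fun h0 => (htr.pow hq0) (sub_eq_zero.mp h0 ▸ isAlgebraic_algebraMap _)
  have hy0 : jF N - algebraMap Kbar (FN N) (a : Kbar) ≠ 0 := by
    intro h0
    apply hy1
    rw [← hred1]
    have : (⟨jF N - algebraMap Kbar (FN N) (a : Kbar), sub_mem hj1 hc1⟩ :
        (redDataBar N A).Rw) = 0 := Subtype.ext h0
    rw [this, map_zero]
  obtain ⟨Dy, hDy, -⟩ := HasPrincipalDivisors.exists_divisor (K := Kbar) _ hy0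
  have hmain := ord_red_eq_sum2 H (sub_mem hj1 hc1) (sub_mem hj2 hc2) (by rw [hred1]; exact hy1)
    (by rw [hred2]; exact hy2) hDy ?_ ?_ ?_
  · refine hmain.1 v ?_
    have := hv
    unfold ValueAt at this
    rw [mem_ordGE] at this
    rcases this with h0 | h0
    · exact absurd h0 hy0
    · omega
  · -- poles are cusps
    intro v' hv'
    apply goodPlace_of_ord_jF_neg N A h H
    by_contra hnn
    rw [not_lt] at hnn
    have hjm : jF N ∈ ordGE v' 0 := by
      rw [mem_ordGE]
      exact Or.inr hnn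
    have hsub := (ordGE v' 0).sub_mem hjm (algebraMap_mem_ordGE_zero v' (a : Kbar))
    rw [mem_ordGE] at hsub
    rcases hsub with h0 | h0
    · exact hy0 h0
    · exact absurd h0 (not_le.mpr hv')
  · intro j
    obtain ⟨cj, hcj1, -⟩ := gluedAt_tau N A h hA FF j
    have hne : cj - (redDataBar N A).res a ≠ 0 := by
      intro h0
      apply hns j
      rw [sub_eq_zero] at h0
      rwa [← h0]
    rw [hred1]
    exact (valueAt_sub_const hcj1 _).ord_eq_zero hne
  · intro j
    obtain ⟨cj, hcj1, hcj2⟩ := gluedAt_tau N A h hA FF j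
    have hne : cj - (redDataBar N A).res a ≠ 0 := by
      intro h0
      apply hns j
      rw [sub_eq_zero] at h0
      rwa [← h0]
    rw [hred2]
    exact (valueAt_sub_const hcj2 _).ord_eq_zero hne

end Main


section Eval

variable {ι : Type} [Fintype ι] {P Q : ι → Place (ResidueField A) (FresBar N A)}
variable {g c : ℤ} {n₀ : ℕ}
variable (H : NodalHyp (redCompatFN N A h) P Q (CS N h) (Dτ N A q) (Dτ N A q) g c n₀)
variable (hA : A.LiesOverPrime q)

include hA in
/-- **EVAL, first component**: `v ∈ disc1 H Q'`, neither `v` nor `Q'` a cusp ⟹ `j(v) ∈ A` and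
`τ(Q') = res j(v)`. -/
theorem valueAt_jF_of_mem_disc1 {v : Place Kbar (FN N)}
    {Q' : Place (ResidueField A) (FresBar N A)} (hd : v ∈ disc1 H Q')
    (hv : 0 ≤ v.ord (jF N)) (hQ : 0 ≤ Q'.ord (tauF N A)) :
    ∃ a : (redDataBar N A).A, ValueAt v (jF N) (a : Kbar) ∧
      ValueAt Q' (tauF N A) ((redDataBar N A).res a) := by
  haveI : Infinite (ResidueField A) := IsAlgClosed.instInfinite
  obtain ⟨hj1, e1⟩ := Fermat.Agent.GK.CuspSep.isRed1_jF N A
  obtain ⟨hj2, -⟩ := Fermat.Agent.GK.CuspSep.isRed2_jF N A h hA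
  obtain ⟨a, ha1, ha2⟩ := valueAt_of_mem_disc1 hd ((CS_eq_zero_iff N h v).mpr hv)
    ((Dτ_eq_zero_iff N A Q').mpr hQ) hj1 hj2 (jF_mem_rr N h)
  rw [e1] at ha2
  exact ⟨a, ha1, ha2⟩

include hA in
/-- **EVAL, second component**: `v ∈ disc2 H Q'`, neither `v` nor `Q'` a cusp ⟹ `j(v) ∈ A` and
`τ(Q')^q = res j(v)`. -/
theorem valueAt_jF_of_mem_disc2 {v : Place Kbar (FN N)}
    {Q' : Place (ResidueField A) (FresBar N A)} (hd : v ∈ disc2 H Q')
    (hv : 0 ≤ v.ord (jF N)) (hQ : 0 ≤ Q'.ord (tauF N A)) :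
    ∃ a : (redData2 N A h).A, ValueAt v (jF N) (a : Kbar) ∧
      ValueAt Q' (tauF N A ^ q) ((redData2 N A h).res a) := by
  haveI : Infinite (ResidueField A) := IsAlgClosed.instInfinite
  obtain ⟨hj1, -⟩ := Fermat.Agent.GK.CuspSep.isRed1_jF N A
  obtain ⟨hj2, e2⟩ := Fermat.Agent.GK.CuspSep.isRed2_jF N A h hA
  obtain ⟨a, ha1, ha2⟩ := valueAt_of_mem_disc2 hd ((CS_eq_zero_iff N h v).mpr hv)
    ((Dτ_eq_zero_iff N A Q').mpr hQ) hj1 hj2 (jF_mem_rr N h)
  rw [e2] at ha2
  exact ⟨a, ha1, ha2⟩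

include hA in
/-- helper48's `PairSurj` (strong approximation for the two Gauss valuations) on this frame. -/
theorem pairSurj_FN :
    Fermat.Agent.GS.Nodal.ROfSurj2.PairSurj (redDataBar N A) (redData2 N A h) := by
  apply Fermat.Agent.GS.Nodal.ROfSurj2.pairSurj_of_incomparable
  intro i j hij
  fin_cases i <;> fin_cases j
  · exact absurd rfl hij
  · exact not_Rw1_le_Rw2 N A h hA
  · exact not_Rw2_le_Rw1 N A h hA
  · exact absurd rfl hij

end Eval


section Big

variable {ι : Type} [Fintype ι] {P Q : ι → Place (ResidueField A) (FresBar N A)}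
variable {g c : ℤ} {n₀ : ℕ}
variable (H : NodalHyp (redCompatFN N A h) P Q (CS N h) (Dτ N A q) (Dτ N A q) g c n₀)
variable (hA : A.LiesOverPrime q) (FF : FrameFacts N A h P Q)

theorem jF_sub_ne_zero (a : Kbar) : jF N - algebraMap Kbar (FN N) a ≠ 0 := fun h0 =>
  (isGen_jF N).transcendental (sub_eq_zero.mp h0 ▸ isAlgebraic_algebraMap a)

theorem ord_inv_aux {L E : Type*} [Field L] [Field E] [Algebra L E] (v : Place L E) {f : E}
    (hf : f ≠ 0) : v.ord f⁻¹ = -v.ord f := by
  have h1 : v.ord (f * f⁻¹) = 0 := by rw [mul_inv_cancel₀ hf, Place.ord_one]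
  rw [Place.ord_mul v hf (inv_ne_zero hf)] at h1
  omega

include hA FF in
/-- **places with `|j(v)| > 1` are good** (they reduce to the cusps of the special fibre):
helper16's `ord_red_eq_sum2` for `y = (1 - j/a) / (j - b)`, `b̃` not a node value. -/
theorem goodPlace_of_valueAt_jF_big {a : Kbar} (haA : a ∉ (redDataBar N A).A)
    {v : Place Kbar (FN N)} (hv : ValueAt v (jF N) a) : GoodPlace H v := by
  classical
  haveI : Infinite (ResidueField A) := IsAlgClosed.instInfinite
  have hR1 := Fermat.Agent.GK.CuspSep.isRed1_jF N A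
  have hR2 := Fermat.Agent.GK.CuspSep.isRed2_jF N A h hA
  obtain ⟨hj1, e1⟩ := hR1
  obtain ⟨hj2, e2⟩ := hR2
  have hc := redCompatFN N A h
  have hq0 : 0 < q := Nat.pos_of_ne_zero (NeZero.ne q)
  have htr := transcendental_tauF N A
  -- the node values
  have hgl : ∀ j, ∃ cj : ResidueField A, ValueAt (P j) (tauF N A) cj ∧
      ValueAt (Q j) (tauF N A ^ q) cj := gluedAt_tau N A h hA FF
  choose cj hcj1 hcj2 using hgl
  obtain ⟨b, hb⟩ := Fermat.Agent.GJ.J1.Select.exists_res_notMem (redDataBar N A)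
    (Finset.univ.image cj)
  have hne : ∀ j, cj j - (redDataBar N A).res b ≠ 0 := by
    intro j h0
    apply hb
    rw [Finset.mem_image]
    exact ⟨j, Finset.mem_univ j, sub_eq_zero.mp h0⟩
  have hns : ∀ j, ¬ ValueAt (P j) (tauF N A) ((redDataBar N A).res b) := by
    intro j hj
    exact hne j (sub_eq_zero.mpr (ValueAt.unique (hcj1 j) hj))
  have hb2 : (b : Kbar) ∈ (redData2 N A h).A := by
    rw [← hc.A_eq]
    exact b.2
  have hres2 : (redData2 N A h).res ⟨(b : Kbar), hb2⟩ = (redDataBar N A).res b :=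
    (hc.res_eq (b : Kbar) b.2 hb2).symm
  -- the two factors
  have haA2 : a ∉ (redData2 N A h).A := fun h' => haA (hc.A_eq ▸ h')
  have hx1' : algebraMap Kbar (FN N) a ∉ (redDataBar N A).Rw :=
    fun h' => haA (((redDataBar N A).mem_A_iff a).2 h')
  have hx2' : algebraMap Kbar (FN N) a ∉ (redData2 N A h).Rw :=
    fun h' => haA2 (((redData2 N A h).mem_A_iff a).2 h')
  have hi1 : (algebraMap Kbar (FN N) a)⁻¹ ∈ (redDataBar N A).Rw :=
    ((redDataBar N A).Rw.mem_or_inv_mem _).resolve_left hx1'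
  have hi2 : (algebraMap Kbar (FN N) a)⁻¹ ∈ (redData2 N A h).Rw :=
    ((redData2 N A h).Rw.mem_or_inv_mem _).resolve_left hx2'
  have ha0 : a ≠ 0 := fun h0 => haA (h0 ▸ (redDataBar N A).A.zero_mem)
  have haF0 : algebraMap Kbar (FN N) a ≠ 0 := by simpa using ha0
  set u : FN N := 1 - (algebraMap Kbar (FN N) a)⁻¹ * jF N with hu
  have hu1 : u ∈ (redDataBar N A).Rw :=
    sub_mem (redDataBar N A).Rw.one_mem (mul_mem hi1 hj1)
  have hu2 : u ∈ (redData2 N A h).Rw :=
    sub_mem (redData2 N A h).Rw.one_mem (mul_mem hi2 hj2)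
  have hured1 : (redDataBar N A).red ⟨u, hu1⟩ = 1 := by
    have e : (⟨u, hu1⟩ : (redDataBar N A).Rw) =
        1 - ⟨(algebraMap Kbar (FN N) a)⁻¹, hi1⟩ * ⟨jF N, hj1⟩ := rfl
    rw [e, map_sub, map_one, map_mul, red_inv_eq_zero (redDataBar N A) hx1' hi1, zero_mul,
      sub_zero]
  have hured2 : (redData2 N A h).red ⟨u, hu2⟩ = 1 := by
    have e : (⟨u, hu2⟩ : (redData2 N A h).Rw) =
        1 - ⟨(algebraMap Kbar (FN N) a)⁻¹, hi2⟩ * ⟨jF N, hj2⟩ := rfl
    rw [e, map_sub, map_one, map_mul, red_inv_eq_zero (redData2 N A h) hx2' hi2, zero_mul,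
      sub_zero]
  have hueq : u = algebraMap Kbar (FN N) (-a⁻¹) * (jF N - algebraMap Kbar (FN N) a) := by
    rw [hu, map_neg, map_inv₀]
    field_simp
    ring
  obtain ⟨hw1, ew1⟩ := Fermat.Agent.GJ.J1.Select.isRed_inv_sub
    (⟨hj1, e1⟩ : (redDataBar N A).IsRed (jF N) (tauF N A)) htr b
  obtain ⟨hw2, ew2⟩ := Fermat.Agent.GJ.J1.Select.isRed_inv_sub
    (⟨hj2, e2⟩ : (redData2 N A h).IsRed (jF N) (tauF N A ^ q)) (htr.pow hq0) ⟨(b : Kbar), hb2⟩
  rw [hres2] at ew2
  set w : FN N := (jF N - algebraMap Kbar (FN N) (b : Kbar))⁻¹ with hw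
  have hjb0 := jF_sub_ne_zero N (b : Kbar)
  have hja0 := jF_sub_ne_zero N a
  have hw0 : w ≠ 0 := inv_ne_zero hjb0
  have hu0 : u ≠ 0 := by
    rw [hueq]
    exact mul_ne_zero (by simpa using ha0) hja0
  have hy0 : u * w ≠ 0 := mul_ne_zero hu0 hw0
  have hyred1 : (redDataBar N A).red ⟨u * w, mul_mem hu1 hw1⟩ =
      (tauF N A - algebraMap (ResidueField A) (FresBar N A) ((redDataBar N A).res b))⁻¹ := by
    have e : (⟨u * w, mul_mem hu1 hw1⟩ : (redDataBar N A).Rw) = ⟨u, hu1⟩ * ⟨w, hw1⟩ := rfl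
    rw [e, map_mul, hured1, one_mul, ew1]
  have hyred2 : (redData2 N A h).red ⟨u * w, mul_mem hu2 hw2⟩ =
      (tauF N A ^ q - algebraMap (ResidueField A) (FresBar N A) ((redDataBar N A).res b))⁻¹ := by
    have e : (⟨u * w, mul_mem hu2 hw2⟩ : (redData2 N A h).Rw) = ⟨u, hu2⟩ * ⟨w, hw2⟩ := rfl
    rw [e, map_mul, hured2, one_mul, ew2]
  have hτb : tauF N A - algebraMap (ResidueField A) (FresBar N A) ((redDataBar N A).res b) ≠ 0 :=
    fun h0 => htr (sub_eq_zero.mp h0 ▸ isAlgebraic_algebraMap _)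
  have hτqb : tauF N A ^ q -
      algebraMap (ResidueField A) (FresBar N A) ((redDataBar N A).res b) ≠ 0 :=
    fun h0 => (htr.pow hq0) (sub_eq_zero.mp h0 ▸ isAlgebraic_algebraMap _)
  obtain ⟨Dy, hDy, -⟩ := HasPrincipalDivisors.exists_divisor (K := Kbar) _ hy0
  have hmain := ord_red_eq_sum2 H (mul_mem hu1 hw1) (mul_mem hu2 hw2)
    (by rw [hyred1]; exact inv_ne_zero hτb) (by rw [hyred2]; exact inv_ne_zero hτqb) hDy ?_ ?_ ?_
  · refine hmain.1 v ?_
    -- `ord_v u ≥ 1`, `ord_v w = 0`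
    have h1 : 1 ≤ v.ord (jF N - algebraMap Kbar (FN N) a) := by
      have := hv
      unfold ValueAt at this
      rw [mem_ordGE] at this
      exact this.resolve_left hja0
    have h2 : v.ord u = v.ord (jF N - algebraMap Kbar (FN N) a) := by
      rw [hueq, Place.ord_mul v (by simpa using ha0) hja0,
        PlaceB.ord_algebraMap v (neg_ne_zero.mpr (inv_ne_zero ha0)), zero_add]
    have hab : a - (b : Kbar) ≠ 0 := by
      intro h0
      apply haA
      rw [sub_eq_zero.mp h0]
      exact b.2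
    have h3 : v.ord (jF N - algebraMap Kbar (FN N) (b : Kbar)) = 0 :=
      (valueAt_sub_const hv _).ord_eq_zero hab
    rw [Place.ord_mul v hu0 hw0, h2, hw, ord_inv_aux v hjb0, h3]
    omega
  · -- poles of `y` are cusps or zeros of `j - b`
    intro v' hv'
    by_cases hcusp : v'.ord (jF N) < 0
    · exact goodPlace_of_ord_jF_neg N A h H hcusp
    rw [not_lt] at hcusp
    apply goodPlace_of_valueAt_jF N A h H hA FF b hns
    unfold ValueAt
    rw [mem_ordGE]
    right
    by_contra hlt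
    have hjm : jF N ∈ ordGE v' 0 := by
      rw [mem_ordGE]
      exact Or.inr hcusp
    have hsub := (ordGE v' 0).sub_mem hjm (algebraMap_mem_ordGE_zero v' (b : Kbar))
    rw [mem_ordGE] at hsub
    have h0 : (0 : ℤ) ≤ v'.ord (jF N - algebraMap Kbar (FN N) (b : Kbar)) :=
      hsub.resolve_left hjb0
    have hwz : v'.ord w = 0 := by
      rw [hw, ord_inv_aux v' hjb0]
      omega
    have hum : u ∈ ordGE v' 0 := by
      rw [hueq]
      have := (ordGE v' 0).sub_mem hjm (algebraMap_mem_ordGE_zero v' a)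
      have h2 := mul_mem_ordGE v' (algebraMap_mem_ordGE_zero v' (-a⁻¹)) this
      simpa using h2
    rw [mem_ordGE] at hum
    have hu' := hum.resolve_left hu0
    rw [Place.ord_mul v' hu0 hw0, hwz] at hv'
    omega
  · intro j
    rw [hyred1]
    exact ((valueAt_sub_const (hcj1 j) _).inv (hne j)).ord_eq_zero (inv_ne_zero (hne j))
  · intro j
    rw [hyred2]
    exact ((valueAt_sub_const (hcj2 j) _).inv (hne j)).ord_eq_zero (inv_ne_zero (hne j))

end Big

end Fermat.Agent.GS.Nodal.Inst
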