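/-
GATE-S / [INST²] instantiation, layer 4 (helper86): **the test functions of the pole-cancelling
argument** (helper68's `GS/Nodal/FF2Tube.lean`) on the nodal frame of `X₀(N)`, `q ∥ N`.

For `c₀ ∈ A` whose residue `z₀` is NOT the `τ`-value of a node, and `a ∈ A`,
`tubeFn N c₀ a := (j - c₀)⁻¹ - a`.

* `isRed1_tubeFn`, `isRed2_tubeFn` : `t_a` is integral for both Gauss valuations, with reductions
  `(τ - z₀)⁻¹ - ā`, `(τ^q - z₀)⁻¹ - ā`, both nonzero (`tubeRed1_ne_zero`, `tubeRed2_ne_zero`);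
* `goodPlace_of_ord_tubeFn_neg` : the poles of `t_a` are good places;
* `ord_red_inv_sub_eq_sum` : the fibre formula for `s = (j - c₀)⁻¹` at EVERY place of both
  components (helper16's `ord_red_eq_sum2`);
* `ord_tubeFn_eq_of_mem_disc1/2` : on the disc of a place `Q'` over `z₀`, `ord_v t_a = ord_v s`;
* `tube_ff1`, `tube_ff2` : **the fibre formula for `t_a` at the places `Q'` over `z₀`**;
* `tube_cover` : every place of the generic fibre is good, or some `t_a` vanishes there.
-/
import Fermat.Agent.GS.Nodal.Inst.Good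

set_option autoImplicit false
set_option linter.unusedSectionVars false
set_option linter.style.haveILetI false

noncomputable section

namespace Fermat.Agent.GS.Nodal.Inst

open AlgebraicCurve IntermediateField Module IsLocalRing ModularCurve
open Fermat.Agent.S24 Fermat.Agent.S24_helper62 Fermat.Agent.RRh45 Fermat.Agent.RR
open Fermat.Agent.GJ.J1 Fermat.Agent.GJ.J1.Val Fermat.Agent.GJ.J1.InstGen
open Fermat.Agent.GK.AL Fermat.Agent.GK.MultiVal Fermat.Agent.GK.CuspSep
open Fermat.Agent.GK.SymChart Fermat.Agent.GK.SymDegree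
open Fermat.Agent.GK.BallTwo
open Fermat.Agent.GK.NodalGraded Fermat.Agent.GK.NodalPole
open Fermat.Agent.GS.Nodal.LSR2

variable {q : ℕ} (N : ℕ) [NeZero N] [NeZero q] (A : ValuationSubring Kbar) (h : ExactDvd q N)

attribute [local instance] finiteResidues_FN hasPrincipalDivisors_FN nonempty_place_FN
  isAlgClosed_res finiteResidues_Fres hasPrincipalDivisors_Fres nonempty_place_Fres

/-! ### generalities on orders -/

/-- subtracting a constant does not change the order at a pole -/
theorem ord_sub_const_of_ord_neg {L E : Type*} [Field L] [Field E] [Algebra L E] (v : Place L E)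
    {f : E} (hf : v.ord f < 0) (a : L) : v.ord (f - algebraMap L E a) = v.ord f := by
  have hf0 : f ≠ 0 := by
    rintro rfl
    rw [Place.ord_zero] at hf
    exact lt_irrefl _ hf
  have hne : f - algebraMap L E a ≠ 0 := by
    intro h0
    rw [sub_eq_zero] at h0
    have := algebraMap_mem_ordGE_zero v a
    rw [← h0, mem_ordGE] at this
    rcases this with h1 | h1
    · exact hf0 h1
    · omega
  have hfm : f ∈ ordGE v (v.ord f) := by
    rw [mem_ordGE]
    exact Or.inr le_rfl
  have ham : algebraMap L E a ∈ ordGE v (v.ord f) :=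
    ordGE_anti v hf.le (algebraMap_mem_ordGE_zero v a)
  have h1 := (ordGE v (v.ord f)).sub_mem hfm ham
  rw [mem_ordGE] at h1
  have hge := h1.resolve_left hne
  by_contra hne'
  have hgt : v.ord f + 1 ≤ v.ord (f - algebraMap L E a) := by omega
  have h2 : f - algebraMap L E a ∈ ordGE v (v.ord f + 1) := by
    rw [mem_ordGE]
    exact Or.inr hgt
  have h3 : algebraMap L E a ∈ ordGE v (v.ord f + 1) :=
    ordGE_anti v (by omega) (algebraMap_mem_ordGE_zero v a)
  have h4 := (ordGE v (v.ord f + 1)).add_mem h2 h3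
  rw [sub_add_cancel, mem_ordGE] at h4
  have := h4.resolve_left hf0
  omega

/-- the sums over a set of places of the orders of two functions with the same orders there -/
theorem sum_filter_support_congr {L E : Type*} [Field L] [Field E] [Algebra L E]
    {Dy Dy' : Divisor L E} {y y' : E} (hDy : ∀ v : Place L E, Dy v = v.ord y)
    (hDy' : ∀ v : Place L E, Dy' v = v.ord y') (S : Set (Place L E))
    [DecidablePred (· ∈ S)]
    (heq : ∀ v ∈ S, v.ord y = v.ord y') :
    ∑ v ∈ Dy.support.filter (· ∈ S), v.ord y = ∑ v ∈ Dy'.support.filter (· ∈ S), v.ord y' := by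
  have hset : Dy.support.filter (· ∈ S) = Dy'.support.filter (· ∈ S) := by
    ext v
    simp only [Finset.mem_filter, Finsupp.mem_support_iff]
    constructor
    · rintro ⟨h1, h2⟩
      exact ⟨by rw [hDy', ← heq v h2, ← hDy]; exact h1, h2⟩
    · rintro ⟨h1, h2⟩
      exact ⟨by rw [hDy, heq v h2, ← hDy']; exact h1, h2⟩
  rw [hset]
  refine Finset.sum_congr rfl fun v hv => ?_
  exact heq v (Finset.mem_filter.mp hv).2

/-! ### the test functions -/

/-- the test function `(j - c₀)⁻¹ - a` -/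
def tubeFn (c₀ a : Kbar) : FN N :=
  (jF N - algebraMap Kbar (FN N) c₀)⁻¹ - algebraMap Kbar (FN N) a

/-- the reduction of the test function on the first component -/
def tubeRed1 (z₀ ā : ResidueField A) : FresBar N A :=
  (tauF N A - algebraMap (ResidueField A) (FresBar N A) z₀)⁻¹ -
    algebraMap (ResidueField A) (FresBar N A) ā

/-- the reduction of the test function on the second component -/
def tubeRed2 (q : ℕ) (z₀ ā : ResidueField A) : FresBar N A :=
  (tauF N A ^ q - algebraMap (ResidueField A) (FresBar N A) z₀)⁻¹ -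
    algebraMap (ResidueField A) (FresBar N A) ā

theorem tubeRed1_ne_zero (z₀ ā : ResidueField A) : tubeRed1 N A z₀ ā ≠ 0 := by
  have htr := transcendental_tauF N A
  have h1 := Fermat.Agent.GJ.J1.Select.transcendental_sub_algebraMap
    (Fermat.Agent.GJ.J1.Select.transcendental_inv
      (Fermat.Agent.GJ.J1.Select.transcendental_sub_algebraMap htr z₀)) ā
  intro h0
  exact h1 (by unfold tubeRed1 at h0; rw [h0]; exact isAlgebraic_zero)

theorem tubeRed2_ne_zero (z₀ ā : ResidueField A) : tubeRed2 N A q z₀ ā ≠ 0 := by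
  have hq0 : 0 < q := Nat.pos_of_ne_zero (NeZero.ne q)
  have htr := (transcendental_tauF N A).pow hq0
  have h1 := Fermat.Agent.GJ.J1.Select.transcendental_sub_algebraMap
    (Fermat.Agent.GJ.J1.Select.transcendental_inv
      (Fermat.Agent.GJ.J1.Select.transcendental_sub_algebraMap htr z₀)) ā
  intro h0
  exact h1 (by unfold tubeRed2 at h0; rw [h0]; exact isAlgebraic_zero)

theorem isRed1_tubeFn (c₀ a : (redDataBar N A).A) :
    (redDataBar N A).IsRed (tubeFn N (c₀ : Kbar) (a : Kbar))
      (tubeRed1 N A ((redDataBar N A).res c₀) ((redDataBar N A).res a)) := by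
  obtain ⟨hj1, e1⟩ := Fermat.Agent.GK.CuspSep.isRed1_jF N A
  exact Fermat.Agent.GJ.J1.Disc.isRed_sub (Fermat.Agent.GJ.J1.Select.isRed_inv_sub
    (⟨hj1, e1⟩ : (redDataBar N A).IsRed (jF N) (tauF N A)) (transcendental_tauF N A) c₀)
    (Fermat.Agent.GJ.J1.Disc.isRed_algebraMap (redDataBar N A) a)

include h in
theorem mem_A2_of_mem_A1 (a : (redDataBar N A).A) : (a : Kbar) ∈ (redData2 N A h).A := by
  rw [← (redCompatFN N A h).A_eq]
  exact a.2

theorem res2_eq_res1 (a : (redDataBar N A).A) :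
    (redData2 N A h).res ⟨(a : Kbar), mem_A2_of_mem_A1 N A h a⟩ = (redDataBar N A).res a :=
  ((redCompatFN N A h).res_eq (a : Kbar) a.2 (mem_A2_of_mem_A1 N A h a)).symm

theorem isRed2_tubeFn (hA : A.LiesOverPrime q) (c₀ a : (redDataBar N A).A) :
    (redData2 N A h).IsRed (tubeFn N (c₀ : Kbar) (a : Kbar))
      (tubeRed2 N A q ((redDataBar N A).res c₀) ((redDataBar N A).res a)) := by
  have hq0 : 0 < q := Nat.pos_of_ne_zero (NeZero.ne q)
  obtain ⟨hj2, e2⟩ := Fermat.Agent.GK.CuspSep.isRed2_jF N A h hA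
  have h1 := Fermat.Agent.GJ.J1.Disc.isRed_sub (Fermat.Agent.GJ.J1.Select.isRed_inv_sub
    (⟨hj2, e2⟩ : (redData2 N A h).IsRed (jF N) (tauF N A ^ q))
    ((transcendental_tauF N A).pow hq0) ⟨(c₀ : Kbar), mem_A2_of_mem_A1 N A h c₀⟩)
    (Fermat.Agent.GJ.J1.Disc.isRed_algebraMap (redData2 N A h) ⟨(a : Kbar), mem_A2_of_mem_A1 N A h a⟩)
  rw [res2_eq_res1, res2_eq_res1] at h1
  exact h1

/-- an integral constant with nonzero residue has an integral inverse -/
theorem inv_mem_A_of_res_ne_zero (x : (redDataBar N A).A) (hx : (redDataBar N A).res x ≠ 0) :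
    (x : Kbar)⁻¹ ∈ (redDataBar N A).A := by
  by_contra hinv
  apply hx
  rw [(redDataBar N A).orthoRedSystem.res_ker x, ValuationSubring.mem_nonunits_iff]
  have h1 : ¬ (redDataBar N A).A.valuation (x : Kbar)⁻¹ ≤ 1 := fun h' =>
    hinv (((redDataBar N A).A.valuation_le_one_iff _).mp h')
  rw [not_le, map_inv₀] at h1
  have hx0 : (redDataBar N A).A.valuation (x : Kbar) ≠ 0 := by
    intro h0
    rw [h0, inv_zero] at h1
    exact not_lt.mpr zero_le_one h1
  have hpos : 0 < (redDataBar N A).A.valuation (x : Kbar) := zero_lt_iff.mpr hx0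
  by_contra hge
  rw [not_lt] at hge
  exact not_lt.mpr ((inv_le_one₀ hpos).mpr hge) h1

/-- a nonzero integral constant with zero residue has no integral inverse -/
theorem inv_notMem_A_of_res_eq_zero (x : (redDataBar N A).A) (hx0 : (x : Kbar) ≠ 0)
    (hx : (redDataBar N A).res x = 0) : (x : Kbar)⁻¹ ∉ (redDataBar N A).A := by
  intro hinv
  have e : x * ⟨(x : Kbar)⁻¹, hinv⟩ = 1 := Subtype.ext (mul_inv_cancel₀ hx0)
  have := congrArg (redDataBar N A).res e
  rw [map_mul, hx, zero_mul, map_one] at this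
  exact zero_ne_one this

section Main

variable {ι : Type} [Fintype ι] {P Q : ι → Place (ResidueField A) (FresBar N A)}
variable {g c : ℤ} {n₀ : ℕ}
variable (H : NodalHyp (redCompatFN N A h) P Q (CS N h) (Dτ N A q) (Dτ N A q) g c n₀)
variable (hA : A.LiesOverPrime q) (FF : FrameFacts N A h P Q)
variable (c₀ : (redDataBar N A).A)
  (hns : ∀ j, ¬ ValueAt (P j) (tauF N A) ((redDataBar N A).res c₀))

/-! ### poles -/

include hA FF hns in
/-- the poles of `s = (j - c₀)⁻¹` are good places -/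
theorem goodPlace_of_ord_inv_neg {v : Place Kbar (FN N)}
    (hv : v.ord (jF N - algebraMap Kbar (FN N) (c₀ : Kbar))⁻¹ < 0) : GoodPlace H v := by
  apply goodPlace_of_valueAt_jF N A h H hA FF c₀ hns
  unfold ValueAt
  rw [mem_ordGE]
  right
  rw [ord_inv_aux v (jF_sub_ne_zero N _)] at hv
  omega

include hA FF hns in
/-- **the poles of the test functions are good places** -/
theorem goodPlace_of_ord_tubeFn_neg (a : Kbar) {v : Place Kbar (FN N)}
    (hv : v.ord (tubeFn N (c₀ : Kbar) a) < 0) : GoodPlace H v := by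
  apply goodPlace_of_ord_inv_neg N A h H hA FF c₀ hns
  by_contra hnn
  rw [not_lt] at hnn
  have hs : (jF N - algebraMap Kbar (FN N) (c₀ : Kbar))⁻¹ ∈ ordGE v 0 := by
    rw [mem_ordGE]
    exact Or.inr hnn
  have := (ordGE v 0).sub_mem hs (algebraMap_mem_ordGE_zero v a)
  rw [mem_ordGE] at this
  unfold tubeFn at hv
  rcases this with h0 | h0
  · rw [h0, Place.ord_zero] at hv
    exact lt_irrefl _ hv
  · omega

/-! ### the fibre formula for `s = (j - c₀)⁻¹` -/

include hA FF hns in
open Classical in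
/-- **the fibre formula for `s = (j - c₀)⁻¹`**, at every place of both components -/
theorem ord_red_inv_sub_eq_sum {Ds : Divisor Kbar (FN N)}
    (hDs : ∀ v : Place Kbar (FN N),
      Ds v = v.ord (jF N - algebraMap Kbar (FN N) (c₀ : Kbar))⁻¹) :
    (∀ Q' : Place (ResidueField A) (FresBar N A),
      Q'.ord (tauF N A - algebraMap (ResidueField A) (FresBar N A)
          ((redDataBar N A).res c₀))⁻¹ =
        ∑ v ∈ Ds.support.filter (fun v => v ∈ disc1 H Q'),
          v.ord (jF N - algebraMap Kbar (FN N) (c₀ : Kbar))⁻¹) ∧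
    (∀ Q' : Place (ResidueField A) (FresBar N A),
      Q'.ord (tauF N A ^ q - algebraMap (ResidueField A) (FresBar N A)
          ((redDataBar N A).res c₀))⁻¹ =
        ∑ v ∈ Ds.support.filter (fun v => v ∈ disc2 H Q'),
          v.ord (jF N - algebraMap Kbar (FN N) (c₀ : Kbar))⁻¹) := by
  haveI : Infinite (ResidueField A) := IsAlgClosed.instInfinite
  obtain ⟨hj1, e1⟩ := Fermat.Agent.GK.CuspSep.isRed1_jF N A
  obtain ⟨hj2, e2⟩ := Fermat.Agent.GK.CuspSep.isRed2_jF N A h hA
  have hq0 : 0 < q := Nat.pos_of_ne_zero (NeZero.ne q)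
  have htr := transcendental_tauF N A
  obtain ⟨hw1, ew1⟩ := Fermat.Agent.GJ.J1.Select.isRed_inv_sub
    (⟨hj1, e1⟩ : (redDataBar N A).IsRed (jF N) (tauF N A)) htr c₀
  obtain ⟨hw2, ew2⟩ := Fermat.Agent.GJ.J1.Select.isRed_inv_sub
    (⟨hj2, e2⟩ : (redData2 N A h).IsRed (jF N) (tauF N A ^ q)) (htr.pow hq0)
    ⟨(c₀ : Kbar), mem_A2_of_mem_A1 N A h c₀⟩
  rw [res2_eq_res1] at ew2
  have hτ : tauF N A - algebraMap (ResidueField A) (FresBar N A) ((redDataBar N A).res c₀) ≠ 0 :=
    fun h0 => htr (sub_eq_zero.mp h0 ▸ isAlgebraic_algebraMap _)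
  have hτq : tauF N A ^ q -
      algebraMap (ResidueField A) (FresBar N A) ((redDataBar N A).res c₀) ≠ 0 :=
    fun h0 => (htr.pow hq0) (sub_eq_zero.mp h0 ▸ isAlgebraic_algebraMap _)
  have hmain := ord_red_eq_sum2 H hw1 hw2 (by rw [ew1]; exact inv_ne_zero hτ)
    (by rw [ew2]; exact inv_ne_zero hτq) hDs
    (fun v hv => goodPlace_of_ord_inv_neg N A h H hA FF c₀ hns hv) ?_ ?_
  · rw [ew1, ew2] at hmain
    exact hmain.2
  · intro j
    obtain ⟨cj, hcj1, -⟩ := gluedAt_tau N A h hA FF j
    have hne : cj - (redDataBar N A).res c₀ ≠ 0 := by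
      intro h0
      apply hns j
      rw [sub_eq_zero] at h0
      rwa [← h0]
    rw [ew1, ord_inv_aux _ hτ, (valueAt_sub_const hcj1 _).ord_eq_zero hne, neg_zero]
  · intro j
    obtain ⟨cj, hcj1, hcj2⟩ := gluedAt_tau N A h hA FF j
    have hne : cj - (redDataBar N A).res c₀ ≠ 0 := by
      intro h0
      apply hns j
      rw [sub_eq_zero] at h0
      rwa [← h0]
    rw [ew2, ord_inv_aux _ hτq, (valueAt_sub_const hcj2 _).ord_eq_zero hne, neg_zero]

/-! ### the orders of the test functions on the discs over `z₀` -/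

/-- `ord_v ((j - c₀)⁻¹ - a) = ord_v (j - c₀)⁻¹` at a place `v` with `j(v) = b ∈ A`, `b ≡ c₀`. -/
theorem ord_tubeFn_eq_of_valueAt (a b : (redDataBar N A).A)
    (hb : (redDataBar N A).res b = (redDataBar N A).res c₀) {v : Place Kbar (FN N)}
    (hv : ValueAt v (jF N) (b : Kbar)) :
    v.ord (tubeFn N (c₀ : Kbar) (a : Kbar)) =
      v.ord (jF N - algebraMap Kbar (FN N) (c₀ : Kbar))⁻¹ := by
  unfold tubeFn
  have hjc0 := jF_sub_ne_zero N (c₀ : Kbar)
  by_cases hbc : (b : Kbar) = (c₀ : Kbar)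
  · -- `v` is a pole of `s`
    rw [hbc] at hv
    have h1 : 1 ≤ v.ord (jF N - algebraMap Kbar (FN N) (c₀ : Kbar)) := by
      have := hv
      unfold ValueAt at this
      rw [mem_ordGE] at this
      exact this.resolve_left hjc0
    apply ord_sub_const_of_ord_neg
    rw [ord_inv_aux v hjc0]
    omega
  · -- `s(v) = (b - c₀)⁻¹ ∉ A`
    have hbc0 : (b : Kbar) - (c₀ : Kbar) ≠ 0 := sub_ne_zero.mpr hbc
    have hval : ValueAt v (jF N - algebraMap Kbar (FN N) (c₀ : Kbar))⁻¹
        ((b : Kbar) - (c₀ : Kbar))⁻¹ := (valueAt_sub_const hv _).inv hbc0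
    have hres : (redDataBar N A).res (b - c₀) = 0 := by rw [map_sub, hb, sub_self]
    have hnot : (((b - c₀ : (redDataBar N A).A) : Kbar))⁻¹ ∉ (redDataBar N A).A :=
      inv_notMem_A_of_res_eq_zero N A (b - c₀) (by push_cast; exact hbc0) hres
    have hne : ((b : Kbar) - (c₀ : Kbar))⁻¹ - (a : Kbar) ≠ 0 := by
      intro h0
      apply hnot
      push_cast
      rw [sub_eq_zero.mp h0]
      exact a.2
    rw [(valueAt_sub_const hval _).ord_eq_zero hne, hval.ord_eq_zero (inv_ne_zero hbc0)]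

include hA in
/-- on the disc of a place `Q'` of the first component over `z₀`, `t_a` and `s` have the same
orders -/
theorem ord_tubeFn_eq_of_mem_disc1 (a : (redDataBar N A).A)
    {Q' : Place (ResidueField A) (FresBar N A)}
    (hQ' : ValueAt Q' (tauF N A) ((redDataBar N A).res c₀)) {v : Place Kbar (FN N)}
    (hd : v ∈ disc1 H Q') :
    v.ord (tubeFn N (c₀ : Kbar) (a : Kbar)) =
      v.ord (jF N - algebraMap Kbar (FN N) (c₀ : Kbar))⁻¹ := by
  have hQ0 : 0 ≤ Q'.ord (tauF N A) := by
    have := hQ'.mem_zero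
    rw [mem_ordGE] at this
    exact this.resolve_left (tauF_ne_zero N A)
  have hv0 : 0 ≤ v.ord (jF N) := by
    by_contra hlt
    rw [not_le] at hlt
    have := ord_tau_neg_of_mem_disc1 N A h H hlt hd
    omega
  obtain ⟨b, hb1, hb2⟩ := valueAt_jF_of_mem_disc1 N A h H hA hd hv0 hQ0
  exact ord_tubeFn_eq_of_valueAt N A c₀ a b (ValueAt.unique hb2 hQ') hb1

include hA in
/-- on the disc of a place `Q'` of the second component over `z₀`, `t_a` and `s` have the same
orders -/
theorem ord_tubeFn_eq_of_mem_disc2 (a : (redDataBar N A).A)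
    {Q' : Place (ResidueField A) (FresBar N A)}
    (hQ' : ValueAt Q' (tauF N A ^ q) ((redDataBar N A).res c₀)) {v : Place Kbar (FN N)}
    (hd : v ∈ disc2 H Q') :
    v.ord (tubeFn N (c₀ : Kbar) (a : Kbar)) =
      v.ord (jF N - algebraMap Kbar (FN N) (c₀ : Kbar))⁻¹ := by
  have hq0 : 0 < q := Nat.pos_of_ne_zero (NeZero.ne q)
  have hτ0 : tauF N A ≠ 0 := tauF_ne_zero N A
  have hQ0 : 0 ≤ Q'.ord (tauF N A) := by
    have := hQ'.mem_zero
    rw [mem_ordGE] at this
    have h1 := this.resolve_left (pow_ne_zero q hτ0)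
    rw [ord_pow_aux Q' hτ0] at h1
    by_contra hlt
    rw [not_le] at hlt
    have : (q : ℤ) * Q'.ord (tauF N A) < 0 :=
      mul_neg_of_pos_of_neg (by exact_mod_cast hq0) hlt
    omega
  have hv0 : 0 ≤ v.ord (jF N) := by
    by_contra hlt
    rw [not_le] at hlt
    have := ord_tau_neg_of_mem_disc2 N A h H hlt hd
    omega
  obtain ⟨b, hb1, hb2⟩ := valueAt_jF_of_mem_disc2 N A h H hA hd hv0 hQ0
  have hbA : (b : Kbar) ∈ (redDataBar N A).A := by
    rw [(redCompatFN N A h).A_eq]
    exact b.2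
  have hres : (redDataBar N A).res ⟨(b : Kbar), hbA⟩ = (redData2 N A h).res b :=
    (redCompatFN N A h).res_eq (b : Kbar) hbA b.2
  exact ord_tubeFn_eq_of_valueAt N A c₀ a ⟨(b : Kbar), hbA⟩
    (by rw [hres]; exact ValueAt.unique hb2 hQ') hb1

/-! ### the fibre formula for the test functions at the places over `z₀` -/

theorem tubeFn_ne_zero (a : (redDataBar N A).A) : tubeFn N (c₀ : Kbar) (a : Kbar) ≠ 0 := by
  obtain ⟨hm, e⟩ := isRed1_tubeFn N A c₀ a
  intro h0
  apply tubeRed1_ne_zero N A ((redDataBar N A).res c₀) ((redDataBar N A).res a)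
  rw [← e]
  have : (⟨tubeFn N (c₀ : Kbar) (a : Kbar), hm⟩ : (redDataBar N A).Rw) = 0 := Subtype.ext h0
  rw [this, map_zero]

include hA FF hns in
open Classical in
/-- **the fibre formula for `t_a` at a place of the first component over `z₀`** -/
theorem tube_ff1 (a : (redDataBar N A).A) {Q' : Place (ResidueField A) (FresBar N A)}
    (hQ' : ValueAt Q' (tauF N A) ((redDataBar N A).res c₀)) {Dt : Divisor Kbar (FN N)}
    (hDt : ∀ v : Place Kbar (FN N), Dt v = v.ord (tubeFn N (c₀ : Kbar) (a : Kbar))) :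
    Q'.ord (tubeRed1 N A ((redDataBar N A).res c₀) ((redDataBar N A).res a)) =
      ∑ v ∈ Dt.support.filter (fun v => v ∈ disc1 H Q'),
        v.ord (tubeFn N (c₀ : Kbar) (a : Kbar)) := by
  have htr := transcendental_tauF N A
  have hτ : tauF N A - algebraMap (ResidueField A) (FresBar N A) ((redDataBar N A).res c₀) ≠ 0 :=
    fun h0 => htr (sub_eq_zero.mp h0 ▸ isAlgebraic_algebraMap _)
  have hjc0 := jF_sub_ne_zero N (c₀ : Kbar)
  obtain ⟨Ds, hDs, -⟩ := HasPrincipalDivisors.exists_divisor (K := Kbar) _ (inv_ne_zero hjc0)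
  have hC := (ord_red_inv_sub_eq_sum N A h H hA FF c₀ hns hDs).1 Q'
  have hpole : Q'.ord (tauF N A - algebraMap (ResidueField A) (FresBar N A)
      ((redDataBar N A).res c₀))⁻¹ < 0 := by
    have := hQ'
    unfold ValueAt at this
    rw [mem_ordGE] at this
    have h1 := this.resolve_left hτ
    rw [ord_inv_aux _ hτ]
    omega
  unfold tubeRed1
  rw [ord_sub_const_of_ord_neg Q' hpole, hC]
  exact (sum_filter_support_congr hDt hDs (disc1 H Q')
    (fun v hv => ord_tubeFn_eq_of_mem_disc1 N A h H hA c₀ a hQ' hv)).symm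

include hA FF hns in
open Classical in
/-- **the fibre formula for `t_a` at a place of the second component over `z₀`** -/
theorem tube_ff2 (a : (redDataBar N A).A) {Q' : Place (ResidueField A) (FresBar N A)}
    (hQ' : ValueAt Q' (tauF N A ^ q) ((redDataBar N A).res c₀)) {Dt : Divisor Kbar (FN N)}
    (hDt : ∀ v : Place Kbar (FN N), Dt v = v.ord (tubeFn N (c₀ : Kbar) (a : Kbar))) :
    Q'.ord (tubeRed2 N A q ((redDataBar N A).res c₀) ((redDataBar N A).res a)) =
      ∑ v ∈ Dt.support.filter (fun v => v ∈ disc2 H Q'),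
        v.ord (tubeFn N (c₀ : Kbar) (a : Kbar)) := by
  have hq0 : 0 < q := Nat.pos_of_ne_zero (NeZero.ne q)
  have htr := (transcendental_tauF N A).pow hq0
  have hτ : tauF N A ^ q -
      algebraMap (ResidueField A) (FresBar N A) ((redDataBar N A).res c₀) ≠ 0 :=
    fun h0 => htr (sub_eq_zero.mp h0 ▸ isAlgebraic_algebraMap _)
  have hjc0 := jF_sub_ne_zero N (c₀ : Kbar)
  obtain ⟨Ds, hDs, -⟩ := HasPrincipalDivisors.exists_divisor (K := Kbar) _ (inv_ne_zero hjc0)
  have hC := (ord_red_inv_sub_eq_sum N A h H hA FF c₀ hns hDs).2 Q'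
  have hpole : Q'.ord (tauF N A ^ q - algebraMap (ResidueField A) (FresBar N A)
      ((redDataBar N A).res c₀))⁻¹ < 0 := by
    have := hQ'
    unfold ValueAt at this
    rw [mem_ordGE] at this
    have h1 := this.resolve_left hτ
    rw [ord_inv_aux _ hτ]
    omega
  unfold tubeRed2
  rw [ord_sub_const_of_ord_neg Q' hpole, hC]
  exact (sum_filter_support_congr hDt hDs (disc2 H Q')
    (fun v hv => ord_tubeFn_eq_of_mem_disc2 N A h H hA c₀ a hQ' hv)).symm

/-! ### the test functions cover the bad places -/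

include hA FF hns in
/-- **every place is good, or some test function vanishes there** -/
theorem tube_cover (v : Place Kbar (FN N)) :
    GoodPlace H v ∨ ∃ a : (redDataBar N A).A, 0 < v.ord (tubeFn N (c₀ : Kbar) (a : Kbar)) := by
  by_cases hcusp : v.ord (jF N) < 0
  · exact Or.inl (goodPlace_of_ord_jF_neg N A h H hcusp)
  rw [not_lt] at hcusp
  have hCv : (1 • CS N h) v = 0 := by
    rw [one_smul]
    exact (CS_eq_zero_iff N h v).mpr hcusp
  obtain ⟨b, hb⟩ := exists_valueAt (H.degF v) hCv (jF_mem_rr N h)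
  by_cases hbA : b ∈ (redDataBar N A).A
  · by_cases hres : (redDataBar N A).res ⟨b, hbA⟩ = (redDataBar N A).res c₀
    · left
      refine goodPlace_of_valueAt_jF N A h H hA FF ⟨b, hbA⟩ ?_ hb
      rw [hres]
      exact hns
    · right
      have hres' : (redDataBar N A).res (⟨b, hbA⟩ - c₀) ≠ 0 := by
        rw [map_sub]
        exact sub_ne_zero.mpr hres
      have hinv := inv_mem_A_of_res_ne_zero N A (⟨b, hbA⟩ - c₀) hres'
      have hbc0 : b - (c₀ : Kbar) ≠ 0 := by
        intro h0
        apply hres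
        congr 1
        exact Subtype.ext (sub_eq_zero.mp h0)
      refine ⟨⟨_, hinv⟩, ?_⟩
      have hval : ValueAt v (jF N - algebraMap Kbar (FN N) (c₀ : Kbar))⁻¹
          (b - (c₀ : Kbar))⁻¹ := (valueAt_sub_const hb _).inv hbc0
      have h0 := valueAt_sub_const hval (b - (c₀ : Kbar))⁻¹
      rw [sub_self, valueAt_zero_iff] at h0
      have hne : tubeFn N (c₀ : Kbar) (b - (c₀ : Kbar))⁻¹ ≠ 0 :=
        tubeFn_ne_zero N A c₀ ⟨_, hinv⟩
      have h1 := h0.resolve_left hne
      change 0 < v.ord (tubeFn N (c₀ : Kbar) (b - (c₀ : Kbar))⁻¹)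
      unfold tubeFn
      omega
  · exact Or.inl (goodPlace_of_valueAt_jF_big N A h H hA FF hbA hb)

end Main

end Fermat.Agent.GS.Nodal.Inst

end
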